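import Mathlib
import Fermat.Agent.BR.SS.Setup
import Fermat.Agent.BR.AnnulusCompat

/-!
# Program B (BADRED), node B7.5 (part 1): chains of exceptional components

`S₀` a semistable setup (in the application: the two-component model `Z₁ ∪ Z₂` of `X₀(qM)` over
`q`).  For every node `e` of `S₀` a *chain* subdivides the annulus of `e`: an annulus coordinate
`u e : F`, gauges `a e i : K` (`i : Fin (n e)`) of strictly decreasing absolute value (level `0` is
next to the component `src e`), and for each level `⟨e, i⟩` a valuation ring `O ⟨e, i⟩` of `F` with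
residue field `RatFunc k` (the exceptional `ℙ¹` at the position `v (a e i)` of the annulus; its
coordinate is the reduction of `u / a`, so `X = ∞` points towards `src e` and `X = 0` towards
`tgt e`).

`ChainFamily S₀` collects the data and the local axioms (block B7.4 is to provide them):
per-level axioms of a constant reduction, conservation on the circles `|u| = |a e i|`, and
`node_match` / `node_unit` on the `n e + 1` open sub-annuli cut out by the levels, in the three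
shapes *first* (`src e` — level `0`), *mid* (level `i` — level `i + 1`), *last*
(level `n e - 1` — `tgt e`).

This file contains the structure, the index types of the refined model
(components `ι₀ ⊕ X`, nodes `ν₀ ⊕ X`, `X = Σ e, Fin (n e)`), the residue fields `FtR`, and the
refined reduction map `rRef` with its characterisation.
-/

set_option autoImplicit false

namespace Fermat.Agent.BR.Refine

open AlgebraicCurve IsLocalRing Fermat.Agent.Red Fermat.Agent.BR.SS Fermat.Agent.BR.P1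
  Fermat.Agent.BR.AnnulusRed

variable {K : Type} {F : Type*} [Field K] [Field F] [Algebra K F]
  {A : ValuationSubring K} [IsAlgClosed (ResidueField A)]
  {ι₀ : Type} {Ft₀ : ι₀ → Type} [∀ v, Field (Ft₀ v)] [∀ v, Algebra (ResidueField A) (Ft₀ v)]
  {ν₀ : Type}

/-- The tube of the node `e`: the places in the open annulus of `e`. -/
def tube (S₀ : SemistableSetup (F := F) A (residue A) ι₀ Ft₀ ν₀) (e : ν₀) : Set (Place K F) :=
  {P | S₀.r P = ⟨S₀.src e, S₀.s₁ e⟩}

theorem tube_unique (S₀ : SemistableSetup (F := F) A (residue A) ι₀ Ft₀ ν₀) {e e' : ν₀}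
    {P : Place K F} (h : P ∈ tube S₀ e) (h' : P ∈ tube S₀ e') : e = e' := by
  have h1 : (⟨S₀.src e, S₀.s₁ e⟩ : Σ v, Place (ResidueField A) (Ft₀ v)) =
      ⟨S₀.src e', S₀.s₁ e'⟩ := h.symm.trans h'
  have h2 := @S₀.branch_injective (Sum.inl e) (Sum.inl e') h1
  exact Sum.inl_injective h2

/-- Chains of exceptional components subdividing the annuli of the nodes of `S₀`, with the local
axioms (the deliverable of block B7.4). -/
structure ChainFamily (S₀ : SemistableSetup (F := F) A (residue A) ι₀ Ft₀ ν₀) where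
  /-- the annulus coordinates -/
  u : ν₀ → F
  /-- the number of levels on the annulus of `e` -/
  n : ν₀ → ℕ
  /-- the gauges -/
  a : ∀ e, Fin (n e) → K
  a_ne : ∀ e i, a e i ≠ 0
  a_anti : ∀ e, StrictAnti fun i => A.valuation (a e i)
  /-- the valuation rings of the exceptional components -/
  O : (Σ e, Fin (n e)) → ValuationSubring F
  /-- the residue maps -/
  res : ∀ x, O x →+* RatFunc (ResidueField A)
  res_surjective : ∀ x, Function.Surjective (res x)
  res_eq_zero_iff : ∀ x (y : O x), res x y = 0 ↔ ¬ IsUnit y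
  algebraMap_mem_iff : ∀ x (c : K), algebraMap K F c ∈ O x ↔ c ∈ A
  res_algebraMap : ∀ x (c : K) (hc : c ∈ A) (hc' : algebraMap K F c ∈ O x),
    res x ⟨algebraMap K F c, hc'⟩ =
      algebraMap (ResidueField A) (RatFunc (ResidueField A)) (residue A ⟨c, hc⟩)
  approx : ∀ x (V : Submodule K F), Module.Finite K V → ∀ y : F, y ∉ V →
    ∃ w ∈ V, ∃ c : K, c ≠ 0 ∧ ∃ h : c • (y - w) ∈ O x,
      ∀ z : O x, (z : F) ∈ V → res x z ≠ res x ⟨c • (y - w), h⟩
  O_injective : Function.Injective O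
  O_ne : ∀ x v, O x ≠ S₀.O v
  /-- conservation on the circle `|u e| = |a e i|` -/
  conservation : ∀ (e : ν₀) (i : Fin (n e)) (y : O ⟨e, i⟩), res ⟨e, i⟩ y ≠ 0 →
    ∀ D : Divisor K F, (∀ P, D P = P.ord (y : F)) →
    ∀ Q : Place (ResidueField A) (RatFunc (ResidueField A)),
      Q ≠ placeAt (ResidueField A) 0 → Q ≠ placeInfty (ResidueField A) →
      Finsupp.mapDomain (redExc A (tube S₀ e) (u e) (a e i)) D (some Q) = Q.ord (res ⟨e, i⟩ y)
  /-- matching on the first sub-annulus (between `src e` and level `0`) -/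
  match_first : ∀ (e : ν₀) (h0 : 0 < n e) (y : F) (h₁ : y ∈ S₀.O (S₀.src e))
    (h₂ : y ∈ O ⟨e, ⟨0, h0⟩⟩),
    (∀ P ∈ tube S₀ e, A.valuation (a e ⟨0, h0⟩) < A.valuation (evalAt P (u e)) → 0 ≤ P.ord y) →
    ∃ c : ResidueField A, IsValueAt (S₀.s₁ e) (S₀.res (S₀.src e) ⟨y, h₁⟩) c ∧
      IsValueAt (placeInfty (ResidueField A)) (res ⟨e, ⟨0, h0⟩⟩ ⟨y, h₂⟩) c
  unit_first : ∀ (e : ν₀) (h0 : 0 < n e) (y : F) (h₁ : y ∈ S₀.O (S₀.src e))
    (_h₂ : y ∈ O ⟨e, ⟨0, h0⟩⟩),
    (∀ P ∈ tube S₀ e, A.valuation (a e ⟨0, h0⟩) < A.valuation (evalAt P (u e)) → 0 ≤ P.ord y) →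
    (∃ c : ResidueField A, c ≠ 0 ∧ IsValueAt (S₀.s₁ e) (S₀.res (S₀.src e) ⟨y, h₁⟩) c) →
    ∀ P ∈ tube S₀ e, A.valuation (a e ⟨0, h0⟩) < A.valuation (evalAt P (u e)) → P.ord y = 0
  /-- matching on a middle sub-annulus (between the levels `i` and `i + 1`) -/
  match_mid : ∀ (e : ν₀) (i : Fin (n e)) (hi : i.1 + 1 < n e) (y : F) (h₁ : y ∈ O ⟨e, i⟩)
    (h₂ : y ∈ O ⟨e, ⟨i.1 + 1, hi⟩⟩),
    (∀ P ∈ tube S₀ e, A.valuation (a e ⟨i.1 + 1, hi⟩) < A.valuation (evalAt P (u e)) →
      A.valuation (evalAt P (u e)) < A.valuation (a e i) → 0 ≤ P.ord y) →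
    ∃ c : ResidueField A, IsValueAt (placeAt (ResidueField A) 0) (res ⟨e, i⟩ ⟨y, h₁⟩) c ∧
      IsValueAt (placeInfty (ResidueField A)) (res ⟨e, ⟨i.1 + 1, hi⟩⟩ ⟨y, h₂⟩) c
  unit_mid : ∀ (e : ν₀) (i : Fin (n e)) (hi : i.1 + 1 < n e) (y : F) (h₁ : y ∈ O ⟨e, i⟩)
    (_h₂ : y ∈ O ⟨e, ⟨i.1 + 1, hi⟩⟩),
    (∀ P ∈ tube S₀ e, A.valuation (a e ⟨i.1 + 1, hi⟩) < A.valuation (evalAt P (u e)) →
      A.valuation (evalAt P (u e)) < A.valuation (a e i) → 0 ≤ P.ord y) →
    (∃ c : ResidueField A, c ≠ 0 ∧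
      IsValueAt (placeAt (ResidueField A) 0) (res ⟨e, i⟩ ⟨y, h₁⟩) c) →
    ∀ P ∈ tube S₀ e, A.valuation (a e ⟨i.1 + 1, hi⟩) < A.valuation (evalAt P (u e)) →
      A.valuation (evalAt P (u e)) < A.valuation (a e i) → P.ord y = 0
  /-- matching on the last sub-annulus (between the last level and `tgt e`) -/
  match_last : ∀ (e : ν₀) (i : Fin (n e)) (_hi : ¬ i.1 + 1 < n e) (y : F) (h₁ : y ∈ O ⟨e, i⟩)
    (h₂ : y ∈ S₀.O (S₀.tgt e)),
    (∀ P ∈ tube S₀ e, A.valuation (evalAt P (u e)) < A.valuation (a e i) → 0 ≤ P.ord y) →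
    ∃ c : ResidueField A, IsValueAt (placeAt (ResidueField A) 0) (res ⟨e, i⟩ ⟨y, h₁⟩) c ∧
      IsValueAt (S₀.s₂ e) (S₀.res (S₀.tgt e) ⟨y, h₂⟩) c
  unit_last : ∀ (e : ν₀) (i : Fin (n e)) (_hi : ¬ i.1 + 1 < n e) (y : F) (h₁ : y ∈ O ⟨e, i⟩)
    (_h₂ : y ∈ S₀.O (S₀.tgt e)),
    (∀ P ∈ tube S₀ e, A.valuation (evalAt P (u e)) < A.valuation (a e i) → 0 ≤ P.ord y) →
    (∃ c : ResidueField A, c ≠ 0 ∧
      IsValueAt (placeAt (ResidueField A) 0) (res ⟨e, i⟩ ⟨y, h₁⟩) c) →
    ∀ P ∈ tube S₀ e, A.valuation (evalAt P (u e)) < A.valuation (a e i) → P.ord y = 0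

/-- The residue function fields of the refined model. -/
def FtR (Ft₀ : ι₀ → Type) (A : ValuationSubring K) (X : Type) : ι₀ ⊕ X → Type
  | Sum.inl v => Ft₀ v
  | Sum.inr _ => RatFunc (ResidueField A)

noncomputable instance instFieldFtR (X : Type) : ∀ v, Field (FtR Ft₀ A X v)
  | Sum.inl v => inferInstanceAs (Field (Ft₀ v))
  | Sum.inr _ => inferInstanceAs (Field (RatFunc (ResidueField A)))

noncomputable instance instAlgebraFtR (X : Type) : ∀ v, Algebra (ResidueField A) (FtR Ft₀ A X v)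
  | Sum.inl v => inferInstanceAs (Algebra (ResidueField A) (Ft₀ v))
  | Sum.inr _ => inferInstanceAs (Algebra (ResidueField A) (RatFunc (ResidueField A)))

namespace ChainFamily

variable {S₀ : SemistableSetup (F := F) A (residue A) ι₀ Ft₀ ν₀} (C : ChainFamily S₀)

/-- The exceptional components (and the additional nodes) of the refined model. -/
abbrev X : Type := Σ e : ν₀, Fin (C.n e)

/-- The points of the normalisation of the refined special fibre. -/
abbrev PtR : Type := Σ v : ι₀ ⊕ C.X, Place (ResidueField A) (FtR Ft₀ A C.X v)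

/-- The valuation rings of the refined model. -/
def OR : ι₀ ⊕ C.X → ValuationSubring F
  | Sum.inl v => S₀.O v
  | Sum.inr x => C.O x

/-- The residue maps of the refined model. -/
def resR : ∀ v : ι₀ ⊕ C.X, C.OR v →+* FtR Ft₀ A C.X v
  | Sum.inl v => S₀.res v
  | Sum.inr x => C.res x

/-- The source component of a node of the refined model. -/
def srcR : ν₀ ⊕ C.X → ι₀ ⊕ C.X
  | Sum.inl e => Sum.inl (S₀.src e)
  | Sum.inr x => Sum.inr x

/-- The source branch of a node of the refined model. -/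
noncomputable def s₁R : ∀ x : ν₀ ⊕ C.X, Place (ResidueField A) (FtR Ft₀ A C.X (C.srcR x))
  | Sum.inl e => S₀.s₁ e
  | Sum.inr _ => placeAt (ResidueField A) 0

/-- The target branch point of a node of the refined model. -/
noncomputable def tgtPt : ν₀ ⊕ C.X → C.PtR
  | Sum.inl e =>
    if h : 0 < C.n e then ⟨Sum.inr ⟨e, ⟨0, h⟩⟩, placeInfty (ResidueField A)⟩
    else ⟨Sum.inl (S₀.tgt e), S₀.s₂ e⟩
  | Sum.inr ⟨e, i⟩ =>
    if h : i.1 + 1 < C.n e then ⟨Sum.inr ⟨e, ⟨i.1 + 1, h⟩⟩, placeInfty (ResidueField A)⟩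
    else ⟨Sum.inl (S₀.tgt e), S₀.s₂ e⟩

/-- The source branch point of a node of the refined model. -/
noncomputable def srcPt (x : ν₀ ⊕ C.X) : C.PtR := ⟨C.srcR x, C.s₁R x⟩

end ChainFamily

end Fermat.Agent.BR.Refine
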