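import Mathlib
import Fermat.Agent.BR.Refine.Chain

/-!
# Program B (BADRED), node B7.5 (part 2): the reduction map of the refined model

For a chain family `C` over the semistable setup `S₀`: the position of a place in the annulus of
a node `e` relative to the levels (`OnLevel`, `Below`, `First`), the trichotomy, and the refined
reduction map `C.rRef : Place K F → C.PtR`:

* a place on the circle of the level `x = ⟨e, i⟩` goes to the point `X = ubar` of the
  exceptional component `x`;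
* a place in the open sub-annulus below the level `x` goes to the source branch `X = 0` of the
  node `inr x`;
* all other places (not in a tube, or in the first sub-annulus of a node) keep their reduction
  on the component `inl v`.
-/

set_option autoImplicit false

namespace Fermat.Agent.BR.Refine

open AlgebraicCurve IsLocalRing Fermat.Agent.Red Fermat.Agent.BR.SS Fermat.Agent.BR.P1
  Fermat.Agent.BR.AnnulusRed

variable {K : Type} {F : Type*} [Field K] [Field F] [Algebra K F]
  {A : ValuationSubring K} [IsAlgClosed (ResidueField A)]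
  {ι₀ : Type} {Ft₀ : ι₀ → Type} [∀ v, Field (Ft₀ v)] [∀ v, Algebra (ResidueField A) (Ft₀ v)]
  {ν₀ : Type}

namespace ChainFamily

variable {S₀ : SemistableSetup (F := F) A (residue A) ι₀ Ft₀ ν₀} (C : ChainFamily S₀)

/-- The absolute value of the annulus coordinate of the node `e` at `P`. -/
noncomputable def absU (e : ν₀) (P : Place K F) : ValuationSubring.ValueGroup A :=
  A.valuation (evalAt P (C.u e))

/-- The absolute value of a gauge. -/
noncomputable def absA (x : C.X) : ValuationSubring.ValueGroup A := A.valuation (C.a x.1 x.2)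

theorem absA_lt_iff {e : ν₀} {i j : Fin (C.n e)} :
    C.absA ⟨e, i⟩ < C.absA ⟨e, j⟩ ↔ j < i :=
  (C.a_anti e).lt_iff_gt

theorem absA_injective {e : ν₀} {i j : Fin (C.n e)} (h : C.absA ⟨e, i⟩ = C.absA ⟨e, j⟩) :
    i = j :=
  (C.a_anti e).injective h

/-- `P` lies on the circle of the level `x`. -/
def OnLevel (x : C.X) (P : Place K F) : Prop :=
  P ∈ tube S₀ x.1 ∧ C.absU x.1 P = C.absA x

/-- `P` lies in the open sub-annulus just below the level `x` (towards `tgt`). -/
def Below (x : C.X) (P : Place K F) : Prop :=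
  P ∈ tube S₀ x.1 ∧ C.absU x.1 P < C.absA x ∧
    ∀ j : Fin (C.n x.1), x.2 < j → C.absA ⟨x.1, j⟩ < C.absU x.1 P

/-- `P` lies in the first open sub-annulus of the node `e` (between `src e` and the level `0`). -/
def First (e : ν₀) (P : Place K F) : Prop :=
  P ∈ tube S₀ e ∧ ∀ j : Fin (C.n e), C.absA ⟨e, j⟩ < C.absU e P

variable {C}

theorem OnLevel.unique {x x' : C.X} {P : Place K F} (h : C.OnLevel x P) (h' : C.OnLevel x' P) :
    x = x' := by
  obtain ⟨e, i⟩ := x
  obtain ⟨e', i'⟩ := x'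
  obtain rfl : e = e' := tube_unique S₀ h.1 h'.1
  have : i = i' := C.absA_injective (h.2.symm.trans h'.2)
  rw [this]

theorem Below.not_onLevel {x x' : C.X} {P : Place K F} (h : C.Below x P) :
    ¬ C.OnLevel x' P := by
  intro h'
  obtain ⟨e, i⟩ := x
  obtain ⟨e', i'⟩ := x'
  obtain rfl : e = e' := tube_unique S₀ h.1 h'.1
  have h2 : C.absU e P = C.absA ⟨e, i'⟩ := h'.2
  rcases lt_or_ge i i' with hlt | hge
  · have := h.2.2 i' hlt
    rw [h2] at this
    exact lt_irrefl _ this
  · have h3 : C.absU e P < C.absA ⟨e, i⟩ := h.2.1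
    rw [h2] at h3
    rcases eq_or_lt_of_le hge with heq | hlt
    · rw [heq] at h3
      exact lt_irrefl _ h3
    · have := (C.absA_lt_iff).2 hlt
      exact lt_asymm this h3

theorem Below.unique {x x' : C.X} {P : Place K F} (h : C.Below x P) (h' : C.Below x' P) :
    x = x' := by
  obtain ⟨e, i⟩ := x
  obtain ⟨e', i'⟩ := x'
  obtain rfl : e = e' := tube_unique S₀ h.1 h'.1
  have key : ∀ {i i' : Fin (C.n e)}, C.Below ⟨e, i⟩ P → C.Below ⟨e, i'⟩ P → ¬ i < i' := by
    intro i i' h h' hlt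
    have h1 := h.2.2 i' hlt
    have h2 : C.absU e P < C.absA ⟨e, i'⟩ := h'.2.1
    exact lt_asymm h1 h2
  have : i = i' := le_antisymm (not_lt.1 (key h' h)) (not_lt.1 (key h h'))
  rw [this]

theorem First.not_onLevel {e : ν₀} {x : C.X} {P : Place K F} (h : C.First e P) :
    ¬ C.OnLevel x P := by
  intro h'
  obtain ⟨e', i'⟩ := x
  obtain rfl : e = e' := tube_unique S₀ h.1 h'.1
  have h1 := h.2 i'
  have h2 : C.absU e P = C.absA ⟨e, i'⟩ := h'.2
  rw [h2] at h1
  exact lt_irrefl _ h1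

theorem First.not_below {e : ν₀} {x : C.X} {P : Place K F} (h : C.First e P) :
    ¬ C.Below x P := by
  intro h'
  obtain ⟨e', i'⟩ := x
  obtain rfl : e = e' := tube_unique S₀ h.1 h'.1
  have h1 := h.2 i'
  have h2 : C.absU e P < C.absA ⟨e, i'⟩ := h'.2.1
  exact lt_asymm h1 h2

variable (C)

/-- **Trichotomy** for the places in the tube of a node. -/
theorem trichotomy {e : ν₀} {P : Place K F} (hP : P ∈ tube S₀ e) :
    (∃ i, C.OnLevel ⟨e, i⟩ P) ∨ (∃ i, C.Below ⟨e, i⟩ P) ∨ C.First e P := by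
  classical
  by_cases h1 : ∃ i, C.absU e P = C.absA ⟨e, i⟩
  · obtain ⟨i, hi⟩ := h1
    exact Or.inl ⟨i, hP, hi⟩
  · push Not at h1
    right
    by_cases h2 : ∃ i, C.absU e P < C.absA ⟨e, i⟩
    · left
      let s : Finset (Fin (C.n e)) := Finset.univ.filter fun i => C.absU e P < C.absA ⟨e, i⟩
      have hs : s.Nonempty := by
        obtain ⟨i, hi⟩ := h2
        exact ⟨i, by simp [s, hi]⟩
      refine ⟨s.max' hs, hP, ?_, ?_⟩
      · have := Finset.max'_mem s hs
        simpa [s] using this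
      · intro j hj
        have hjs : j ∉ s := fun hjs => absurd (Finset.le_max' s j hjs) (not_le.2 hj)
        have h3 : ¬ C.absU e P < C.absA ⟨e, j⟩ := by simpa [s] using hjs
        exact lt_of_le_of_ne (not_lt.1 h3) (h1 j).symm
    · right
      push Not at h2
      exact ⟨hP, fun j => lt_of_le_of_ne (h2 j) (h1 j).symm⟩

open Classical in
/-- The reduction map of the refined model. -/
noncomputable def rRef (P : Place K F) : C.PtR :=
  if h : ∃ x, C.OnLevel x P then
    ⟨Sum.inr h.choose,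
      placeAt (ResidueField A) (ubar A (C.u h.choose.1) (C.a h.choose.1 h.choose.2) P)⟩
  else if h : ∃ x, C.Below x P then ⟨Sum.inr h.choose, placeAt (ResidueField A) 0⟩
  else ⟨Sum.inl (S₀.r P).1, (S₀.r P).2⟩

variable {C}

theorem rRef_of_onLevel {x : C.X} {P : Place K F} (h : C.OnLevel x P) :
    C.rRef P = ⟨Sum.inr x, placeAt (ResidueField A) (ubar A (C.u x.1) (C.a x.1 x.2) P)⟩ := by
  have hex : ∃ x, C.OnLevel x P := ⟨x, h⟩
  have hx : hex.choose = x := hex.choose_spec.unique h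
  unfold rRef
  rw [dif_pos hex, hx]

theorem rRef_of_below {x : C.X} {P : Place K F} (h : C.Below x P) :
    C.rRef P = ⟨Sum.inr x, placeAt (ResidueField A) 0⟩ := by
  have hno : ¬ ∃ x, C.OnLevel x P := fun ⟨x', hx'⟩ => h.not_onLevel hx'
  have hex : ∃ x, C.Below x P := ⟨x, h⟩
  have hx : hex.choose = x := hex.choose_spec.unique h
  unfold rRef
  rw [dif_neg hno, dif_pos hex, hx]

theorem rRef_of_first {e : ν₀} {P : Place K F} (h : C.First e P) :
    C.rRef P = ⟨Sum.inl (S₀.src e), S₀.s₁ e⟩ := by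
  have hno : ¬ ∃ x, C.OnLevel x P := fun ⟨x', hx'⟩ => h.not_onLevel hx'
  have hno' : ¬ ∃ x, C.Below x P := fun ⟨x', hx'⟩ => h.not_below hx'
  unfold rRef
  rw [dif_neg hno, dif_neg hno']
  have : S₀.r P = ⟨S₀.src e, S₀.s₁ e⟩ := h.1
  rw [this]

theorem rRef_of_not_tube {P : Place K F} (h : ∀ e, P ∉ tube S₀ e) :
    C.rRef P = ⟨Sum.inl (S₀.r P).1, (S₀.r P).2⟩ := by
  have hno : ¬ ∃ x, C.OnLevel x P := fun ⟨x', hx'⟩ => h _ hx'.1
  have hno' : ¬ ∃ x, C.Below x P := fun ⟨x', hx'⟩ => h _ hx'.1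
  unfold rRef
  rw [dif_neg hno, dif_neg hno']

/-- The four cases for a place. -/
theorem cases_place (C : ChainFamily S₀) (P : Place K F) :
    (∃ x, C.OnLevel x P) ∨ (∃ x, C.Below x P) ∨ (∃ e, C.First e P) ∨ ∀ e, P ∉ tube S₀ e := by
  by_cases h : ∃ e, P ∈ tube S₀ e
  · obtain ⟨e, he⟩ := h
    rcases C.trichotomy he with ⟨i, hi⟩ | ⟨i, hi⟩ | h1
    · exact Or.inl ⟨_, hi⟩
    · exact Or.inr (Or.inl ⟨_, hi⟩)
    · exact Or.inr (Or.inr (Or.inl ⟨e, h1⟩))
  · push Not at h
    exact Or.inr (Or.inr (Or.inr h))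

/-! ### The fibres of `rRef` -/

theorem rRef_eq_inl_iff {P : Place K F} {v : ι₀} {Q : Place (ResidueField A) (Ft₀ v)} :
    C.rRef P = ⟨Sum.inl v, Q⟩ ↔
      S₀.r P = ⟨v, Q⟩ ∧ ((∃ e, C.First e P) ∨ ∀ e, P ∉ tube S₀ e) := by
  rcases C.cases_place P with ⟨x, hx⟩ | ⟨x, hx⟩ | ⟨e, he⟩ | hno
  · rw [rRef_of_onLevel hx]
    constructor
    · intro h
      cases h
    · rintro ⟨_, ⟨e, he⟩ | hno⟩
      · exact absurd hx he.not_onLevel
      · exact absurd hx.1 (hno _)
  · rw [rRef_of_below hx]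
    constructor
    · intro h
      cases h
    · rintro ⟨_, ⟨e, he⟩ | hno⟩
      · exact absurd hx he.not_below
      · exact absurd hx.1 (hno _)
  · rw [rRef_of_first he]
    have h0 : S₀.r P = ⟨S₀.src e, S₀.s₁ e⟩ := he.1
    constructor
    · intro h
      have h1 : (⟨S₀.src e, S₀.s₁ e⟩ : Σ v, Place (ResidueField A) (Ft₀ v)) = ⟨v, Q⟩ := by
        cases h
        rfl
      exact ⟨h0.trans h1, Or.inl ⟨e, he⟩⟩
    · rintro ⟨h1, _⟩
      have h2 : (⟨S₀.src e, S₀.s₁ e⟩ : Σ v, Place (ResidueField A) (Ft₀ v)) = ⟨v, Q⟩ :=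
        h0.symm.trans h1
      cases h2
      rfl
  · rw [rRef_of_not_tube hno]
    constructor
    · intro h
      have h1 : S₀.r P = ⟨v, Q⟩ := by
        cases h
        rfl
      exact ⟨h1, Or.inr hno⟩
    · rintro ⟨h1, _⟩
      rw [h1]

theorem rRef_eq_inr_iff {P : Place K F} {x : C.X}
    {Q : Place (ResidueField A) (RatFunc (ResidueField A))} :
    C.rRef P = ⟨Sum.inr x, Q⟩ ↔
      (C.OnLevel x P ∧ Q = placeAt (ResidueField A) (ubar A (C.u x.1) (C.a x.1 x.2) P)) ∨
      (C.Below x P ∧ Q = placeAt (ResidueField A) 0) := by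
  rcases C.cases_place P with ⟨x', hx'⟩ | ⟨x', hx'⟩ | ⟨e, he⟩ | hno
  · rw [rRef_of_onLevel hx']
    constructor
    · intro h
      cases h
      exact Or.inl ⟨hx', rfl⟩
    · rintro (⟨h1, h2⟩ | ⟨h1, _⟩)
      · obtain rfl := hx'.unique h1
        rw [h2]
      · exact absurd hx' h1.not_onLevel
  · rw [rRef_of_below hx']
    constructor
    · intro h
      cases h
      exact Or.inr ⟨hx', rfl⟩
    · rintro (⟨h1, _⟩ | ⟨h1, h2⟩)
      · exact absurd h1 hx'.not_onLevel
      · obtain rfl := hx'.unique h1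
        rw [h2]
  · rw [rRef_of_first he]
    constructor
    · intro h
      cases h
    · rintro (⟨h1, _⟩ | ⟨h1, _⟩)
      · exact absurd h1 he.not_onLevel
      · exact absurd h1 he.not_below
  · rw [rRef_of_not_tube hno]
    constructor
    · intro h
      cases h
    · rintro (⟨h1, _⟩ | ⟨h1, _⟩)
      · exact absurd h1.1 (hno _)
      · exact absurd h1.1 (hno _)

end ChainFamily

end Fermat.Agent.BR.Refine
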