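import Mathlib
import Fermat.Agent.BR.Refine.Red

/-!
# Program B (BADRED), node B7.5 (part 3): the nodes of the refined model

Branch points of the refined model (`srcPt`, `tgtPt`), their injectivity, connectedness of the
refined dual graph, and the description of the fibres of `rRef` over the source branches.
-/

set_option autoImplicit false

namespace Fermat.Agent.BR.Refine

open AlgebraicCurve IsLocalRing Fermat.Agent.Red Fermat.Agent.BR.SS Fermat.Agent.BR.P1
  Fermat.Agent.BR.AnnulusRed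

variable {K : Type} {F : Type*} [Field K] [Field F] [Algebra K F]
  {A : ValuationSubring K} [IsAlgClosed (ResidueField A)]
  {ι₀ : Type} {Ft₀ : ι₀ → Type} [∀ v, Field (Ft₀ v)] [∀ v, Algebra (ResidueField A) (Ft₀ v)]
  {ν₀ : Type}

namespace ChainFamily

variable {S₀ : SemistableSetup (F := F) A (residue A) ι₀ Ft₀ ν₀} (C : ChainFamily S₀)

/-- The points of the old components inside the refined model. -/
def inlPt (p : Σ v, Place (ResidueField A) (Ft₀ v)) : C.PtR := ⟨Sum.inl p.1, p.2⟩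

/-- The points of the exceptional components. -/
def inrPt (x : C.X) (Q : Place (ResidueField A) (RatFunc (ResidueField A))) : C.PtR :=
  ⟨Sum.inr x, Q⟩

variable {C}

theorem inlPt_injective : Function.Injective C.inlPt := by
  rintro ⟨v, Q⟩ ⟨v', Q'⟩ h
  unfold inlPt at h
  cases h
  rfl

theorem inrPt_inj {x x' : C.X} {Q Q' : Place (ResidueField A) (RatFunc (ResidueField A))}
    (h : C.inrPt x Q = C.inrPt x' Q') : x = x' ∧ Q = Q' := by
  unfold inrPt at h
  cases h
  exact ⟨rfl, rfl⟩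

theorem inlPt_ne_inrPt {p : Σ v, Place (ResidueField A) (Ft₀ v)} {x : C.X}
    {Q : Place (ResidueField A) (RatFunc (ResidueField A))} : C.inlPt p ≠ C.inrPt x Q := by
  intro h
  unfold inlPt inrPt at h
  cases h

/-! ### The branch points -/

theorem srcPt_inl (e : ν₀) : C.srcPt (Sum.inl e) = C.inlPt ⟨S₀.src e, S₀.s₁ e⟩ := rfl

theorem srcPt_inr (x : C.X) : C.srcPt (Sum.inr x) = C.inrPt x (placeAt (ResidueField A) 0) := rfl

theorem tgtPt_inl_pos {e : ν₀} (h : 0 < C.n e) :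
    C.tgtPt (Sum.inl e) = C.inrPt ⟨e, ⟨0, h⟩⟩ (placeInfty (ResidueField A)) := by
  simp only [tgtPt, dif_pos h]
  rfl

theorem tgtPt_inl_zero {e : ν₀} (h : ¬ 0 < C.n e) :
    C.tgtPt (Sum.inl e) = C.inlPt ⟨S₀.tgt e, S₀.s₂ e⟩ := by
  simp only [tgtPt, dif_neg h]
  rfl

theorem tgtPt_inr_lt {e : ν₀} {i : Fin (C.n e)} (h : i.1 + 1 < C.n e) :
    C.tgtPt (Sum.inr ⟨e, i⟩) = C.inrPt ⟨e, ⟨i.1 + 1, h⟩⟩ (placeInfty (ResidueField A)) := by
  simp only [tgtPt, dif_pos h]
  rfl

theorem tgtPt_inr_last {e : ν₀} {i : Fin (C.n e)} (h : ¬ i.1 + 1 < C.n e) :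
    C.tgtPt (Sum.inr ⟨e, i⟩) = C.inlPt ⟨S₀.tgt e, S₀.s₂ e⟩ := by
  simp only [tgtPt, dif_neg h]
  rfl

/-- The edge of the refined model ending at the old target branch of `e`. -/
def lastEdge (C : ChainFamily S₀) (e : ν₀) : ν₀ ⊕ C.X :=
  if h : 0 < C.n e then Sum.inr ⟨e, ⟨C.n e - 1, Nat.sub_lt h Nat.one_pos⟩⟩ else Sum.inl e

theorem tgtPt_lastEdge (e : ν₀) : C.tgtPt (C.lastEdge e) = C.inlPt ⟨S₀.tgt e, S₀.s₂ e⟩ := by
  unfold lastEdge
  split_ifs with h
  · apply tgtPt_inr_last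
    simp only
    omega
  · exact tgtPt_inl_zero h

/-- The edge of the refined model ending at the branch `X = ∞` of the level `x`. -/
def prevEdge (C : ChainFamily S₀) (x : C.X) : ν₀ ⊕ C.X :=
  if h : 0 < x.2.1 then Sum.inr ⟨x.1, ⟨x.2.1 - 1, by have := x.2.2; omega⟩⟩ else Sum.inl x.1

theorem tgtPt_prevEdge (x : C.X) :
    C.tgtPt (C.prevEdge x) = C.inrPt x (placeInfty (ResidueField A)) := by
  obtain ⟨e, i⟩ := x
  unfold prevEdge
  split_ifs with h
  · have h1 : (i.1 - 1) + 1 < C.n e := by have := i.2; simp only at h; omega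
    rw [tgtPt_inr_lt (i := ⟨i.1 - 1, by have := i.2; omega⟩) h1]
    have h2 : (⟨i.1 - 1 + 1, h1⟩ : Fin (C.n e)) = i := Fin.ext (by simp only at h ⊢; omega)
    rw [h2]
  · have h0 : 0 < C.n e := by have := i.2; omega
    rw [tgtPt_inl_pos h0]
    have h2 : (⟨0, h0⟩ : Fin (C.n e)) = i := Fin.ext (by simp only at h ⊢; omega)
    rw [h2]

/-- Every target branch is either `X = ∞` on an exceptional component or an old target branch. -/
theorem tgtPt_cases (x : ν₀ ⊕ C.X) :
    (∃ x', C.tgtPt x = C.inrPt x' (placeInfty (ResidueField A))) ∨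
      ∃ e, C.tgtPt x = C.inlPt ⟨S₀.tgt e, S₀.s₂ e⟩ := by
  rcases x with e | ⟨e, i⟩
  · by_cases h : 0 < C.n e
    · exact Or.inl ⟨_, tgtPt_inl_pos h⟩
    · exact Or.inr ⟨e, tgtPt_inl_zero h⟩
  · by_cases h : i.1 + 1 < C.n e
    · exact Or.inl ⟨_, tgtPt_inr_lt h⟩
    · exact Or.inr ⟨e, tgtPt_inr_last h⟩

theorem srcPt_injective : Function.Injective C.srcPt := by
  rintro (e | x) (e' | x') h
  · rw [srcPt_inl, srcPt_inl] at h
    have h1 := inlPt_injective h
    have h2 := @S₀.branch_injective (Sum.inl e) (Sum.inl e') h1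
    rw [Sum.inl_injective h2]
  · rw [srcPt_inl, srcPt_inr] at h
    exact absurd h inlPt_ne_inrPt
  · rw [srcPt_inl, srcPt_inr] at h
    exact absurd h.symm inlPt_ne_inrPt
  · rw [srcPt_inr, srcPt_inr] at h
    rw [(inrPt_inj h).1]

theorem srcPt_ne_tgtPt (x x' : ν₀ ⊕ C.X) : C.srcPt x ≠ C.tgtPt x' := by
  intro h
  rcases tgtPt_cases x' with ⟨x'', h'⟩ | ⟨e', h'⟩
  · rw [h'] at h
    rcases x with e | x
    · rw [srcPt_inl] at h
      exact inlPt_ne_inrPt h
    · rw [srcPt_inr] at h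
      exact placeAt_ne_placeInfty _ (inrPt_inj h).2
  · rw [h'] at h
    rcases x with e | x
    · rw [srcPt_inl] at h
      have h1 := inlPt_injective h
      have h2 := @S₀.branch_injective (Sum.inl e) (Sum.inr e') h1
      cases h2
    · rw [srcPt_inr] at h
      exact inlPt_ne_inrPt h.symm

theorem tgtPt_injective : Function.Injective C.tgtPt := by
  have old : ∀ e e' : ν₀, C.inlPt ⟨S₀.tgt e, S₀.s₂ e⟩ = C.inlPt ⟨S₀.tgt e', S₀.s₂ e'⟩ → e = e' := by
    intro e e' h
    have h1 := inlPt_injective h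
    have h2 := @S₀.branch_injective (Sum.inr e) (Sum.inr e') h1
    exact Sum.inr_injective h2
  rintro (e | ⟨e, i⟩) (e' | ⟨e', i'⟩) h
  · by_cases h0 : 0 < C.n e <;> by_cases h0' : 0 < C.n e'
    · rw [tgtPt_inl_pos h0, tgtPt_inl_pos h0'] at h
      have := (inrPt_inj h).1
      rw [Sigma.mk.inj_iff] at this
      rw [this.1]
    · rw [tgtPt_inl_pos h0, tgtPt_inl_zero h0'] at h
      exact absurd h.symm inlPt_ne_inrPt
    · rw [tgtPt_inl_zero h0, tgtPt_inl_pos h0'] at h
      exact absurd h inlPt_ne_inrPt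
    · rw [tgtPt_inl_zero h0, tgtPt_inl_zero h0'] at h
      rw [old e e' h]
  · exfalso
    by_cases h0 : 0 < C.n e <;> by_cases h1 : i'.1 + 1 < C.n e'
    · rw [tgtPt_inl_pos h0, tgtPt_inr_lt h1] at h
      have := (inrPt_inj h).1
      rw [Sigma.mk.inj_iff] at this
      obtain ⟨rfl, h3⟩ := this
      rw [heq_eq_eq, Fin.mk.injEq] at h3
      omega
    · rw [tgtPt_inl_pos h0, tgtPt_inr_last h1] at h
      exact inlPt_ne_inrPt h.symm
    · rw [tgtPt_inl_zero h0, tgtPt_inr_lt h1] at h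
      exact inlPt_ne_inrPt h
    · rw [tgtPt_inl_zero h0, tgtPt_inr_last h1] at h
      obtain rfl := old e e' h
      have := i'.2
      omega
  · exfalso
    by_cases h0 : 0 < C.n e' <;> by_cases h1 : i.1 + 1 < C.n e
    · rw [tgtPt_inl_pos h0, tgtPt_inr_lt h1] at h
      have := (inrPt_inj h).1
      rw [Sigma.mk.inj_iff] at this
      obtain ⟨rfl, h3⟩ := this
      rw [heq_eq_eq, Fin.mk.injEq] at h3
      omega
    · rw [tgtPt_inl_pos h0, tgtPt_inr_last h1] at h
      exact inlPt_ne_inrPt h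
    · rw [tgtPt_inl_zero h0, tgtPt_inr_lt h1] at h
      exact inlPt_ne_inrPt h.symm
    · rw [tgtPt_inl_zero h0, tgtPt_inr_last h1] at h
      obtain rfl := old e e' h
      have := i.2
      omega
  · by_cases h1 : i.1 + 1 < C.n e <;> by_cases h1' : i'.1 + 1 < C.n e'
    · rw [tgtPt_inr_lt h1, tgtPt_inr_lt h1'] at h
      have := (inrPt_inj h).1
      rw [Sigma.mk.inj_iff] at this
      obtain ⟨rfl, h3⟩ := this
      rw [heq_eq_eq, Fin.mk.injEq] at h3
      have : i = i' := Fin.ext (by omega)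
      rw [this]
    · rw [tgtPt_inr_lt h1, tgtPt_inr_last h1'] at h
      exact absurd h.symm inlPt_ne_inrPt
    · rw [tgtPt_inr_last h1, tgtPt_inr_lt h1'] at h
      exact absurd h inlPt_ne_inrPt
    · rw [tgtPt_inr_last h1, tgtPt_inr_last h1'] at h
      obtain rfl := old e e' h
      have : i = i' := Fin.ext (by have := i.2; have := i'.2; omega)
      rw [this]

theorem branch_injective (C : ChainFamily S₀) :
    Function.Injective (Sum.elim C.srcPt C.tgtPt) := by
  rintro (x | x) (x' | x') h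
  · rw [srcPt_injective h]
  · exact absurd h (srcPt_ne_tgtPt x x')
  · exact absurd h.symm (srcPt_ne_tgtPt x' x)
  · rw [tgtPt_injective h]

end ChainFamily

end Fermat.Agent.BR.Refine
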