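import Mathlib
import Fermat.Agent.BR.Refine.Branch

/-!
# Program B (BADRED), node B7.5 (part 4): connectedness and the regions of the refined model

* `connectedR` : the dual graph of the refined model is connected;
* `rRef_eq_srcPt_inl_iff`, `rRef_eq_srcPt_inr_iff` : the fibres of the refined reduction over the
  source branches of the refined nodes are the open sub-annuli `First e`, `Below x`;
* `first_iff_of_pos`, `first_iff_of_zero`, `below_iff_of_lt`, `below_iff_of_last` : description of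
  these sub-annuli by two inequalities;
* `rRef_ne_tgtPt` : no place reduces to a target branch;
* `mapDomain_apply_eq_sum`, `mapDomain_congr_fibre` : computing push-forwards of divisors at a
  point from the fibre.
-/

set_option autoImplicit false

namespace Fermat.Agent.BR.Refine

open AlgebraicCurve IsLocalRing Fermat.Agent.Red Fermat.Agent.BR.SS Fermat.Agent.BR.P1
  Fermat.Agent.BR.AnnulusRed

section Finsupp

variable {α β γ : Type*}

theorem mapDomain_apply_eq_sum [DecidableEq β] (f : α → β) (D : α →₀ ℤ) (x : β) :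
    Finsupp.mapDomain f D x = D.sum fun P n => if f P = x then n else 0 := by
  rw [Finsupp.mapDomain, Finsupp.sum_apply]
  refine Finset.sum_congr rfl fun P _ => ?_
  beta_reduce
  rw [Finsupp.single_apply]

/-- Push-forwards along two maps agree at two points with the same fibres. -/
theorem mapDomain_congr_fibre (f : α → β) (f' : α → γ) (D : α →₀ ℤ) (x : β) (x' : γ)
    (h : ∀ P ∈ D.support, f P = x ↔ f' P = x') :
    Finsupp.mapDomain f D x = Finsupp.mapDomain f' D x' := by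
  classical
  rw [mapDomain_apply_eq_sum, mapDomain_apply_eq_sum]
  refine Finset.sum_congr rfl fun P hP => ?_
  beta_reduce
  by_cases h1 : f P = x
  · rw [if_pos h1, if_pos ((h P hP).1 h1)]
  · rw [if_neg h1, if_neg fun h2 => h1 ((h P hP).2 h2)]

end Finsupp

variable {K : Type} {F : Type*} [Field K] [Field F] [Algebra K F]
  {A : ValuationSubring K} [IsAlgClosed (ResidueField A)]
  {ι₀ : Type} {Ft₀ : ι₀ → Type} [∀ v, Field (Ft₀ v)] [∀ v, Algebra (ResidueField A) (Ft₀ v)]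
  {ν₀ : Type}

namespace ChainFamily

variable {S₀ : SemistableSetup (F := F) A (residue A) ι₀ Ft₀ ν₀} {C : ChainFamily S₀}

/-! ### Connectedness -/

/-- Along a chain all levels lie in an edge-closed set as soon as the source component does. -/
theorem mem_of_src_mem {T : Set (ι₀ ⊕ C.X)}
    (hT : ∀ x, C.srcR x ∈ T ↔ (C.tgtPt x).1 ∈ T) (e : ν₀) :
    ∀ (m : ℕ) (hm : m < C.n e), (Sum.inr ⟨e, ⟨m, hm⟩⟩ ∈ T ↔ Sum.inl (S₀.src e) ∈ T) := by
  intro m
  induction m with
  | zero =>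
    intro hm
    have h1 := hT (Sum.inl e)
    rw [tgtPt_inl_pos hm] at h1
    exact h1.symm
  | succ m ih =>
    intro hm
    have hm' : m < C.n e := by omega
    have h1 := hT (Sum.inr ⟨e, ⟨m, hm'⟩⟩)
    rw [tgtPt_inr_lt (i := ⟨m, hm'⟩) hm] at h1
    exact h1.symm.trans (ih hm')

theorem tgt_mem_iff_src_mem {T : Set (ι₀ ⊕ C.X)}
    (hT : ∀ x, C.srcR x ∈ T ↔ (C.tgtPt x).1 ∈ T) (e : ν₀) :
    Sum.inl (S₀.tgt e) ∈ T ↔ Sum.inl (S₀.src e) ∈ T := by
  by_cases h0 : 0 < C.n e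
  · have hl : C.n e - 1 < C.n e := Nat.sub_lt h0 Nat.one_pos
    have h1 := hT (Sum.inr ⟨e, ⟨C.n e - 1, hl⟩⟩)
    rw [tgtPt_inr_last (i := ⟨C.n e - 1, hl⟩) (by simp only; omega)] at h1
    exact h1.symm.trans (mem_of_src_mem hT e _ hl)
  · have h1 := hT (Sum.inl e)
    rw [tgtPt_inl_zero h0] at h1
    exact h1.symm

/-- The dual graph of the refined model is connected. -/
theorem connectedR (C : ChainFamily S₀) (T : Set (ι₀ ⊕ C.X)) (hne : T.Nonempty)
    (hT : ∀ x, C.srcR x ∈ T ↔ (C.tgtPt x).1 ∈ T) : T = Set.univ := by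
  let T₀ : Set ι₀ := {v | Sum.inl v ∈ T}
  have hT₀ : T₀ = Set.univ := by
    apply S₀.connected
    · obtain ⟨v, hv⟩ := hne
      rcases v with v | ⟨e, i⟩
      · exact ⟨v, hv⟩
      · refine ⟨S₀.src e, ?_⟩
        exact (mem_of_src_mem hT e i.1 i.2).1 hv
    · intro e
      exact (tgt_mem_iff_src_mem hT e).symm
  apply Set.eq_univ_of_forall
  rintro (v | ⟨e, i⟩)
  · have : v ∈ T₀ := by rw [hT₀]; trivial
    exact this
  · have : S₀.src e ∈ T₀ := by rw [hT₀]; trivial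
    exact (mem_of_src_mem hT e i.1 i.2).2 this

/-! ### The regions -/

theorem rRef_eq_srcPt_inl_iff {P : Place K F} {e : ν₀} :
    C.rRef P = C.srcPt (Sum.inl e) ↔ C.First e P := by
  rw [srcPt_inl]
  unfold inlPt
  rw [rRef_eq_inl_iff]
  constructor
  · rintro ⟨h1, ⟨e', he'⟩ | hno⟩
    · have : e' = e := tube_unique S₀ he'.1 h1
      rw [← this]
      exact he'
    · exact absurd h1 (hno e)
  · intro h
    exact ⟨h.1, Or.inl ⟨e, h⟩⟩

theorem ubar_ne_zero_of_onLevel {P : Place K F} {x : C.X} (h : C.OnLevel x P) :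
    ubar A (C.u x.1) (C.a x.1 x.2) P ≠ 0 :=
  ubar_ne_zero A (C.a_ne x.1 x.2) h.2

theorem rRef_eq_srcPt_inr_iff {P : Place K F} {x : C.X} :
    C.rRef P = C.srcPt (Sum.inr x) ↔ C.Below x P := by
  rw [srcPt_inr]
  unfold inrPt
  rw [rRef_eq_inr_iff]
  constructor
  · rintro (⟨h1, h2⟩ | ⟨h1, _⟩)
    · exact absurd (placeAt_injective h2).symm (ubar_ne_zero_of_onLevel h1)
    · exact h1
  · intro h
    exact Or.inr ⟨h, rfl⟩

theorem first_iff_of_zero {P : Place K F} {e : ν₀} (h0 : ¬ 0 < C.n e) :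
    C.First e P ↔ P ∈ tube S₀ e := by
  constructor
  · exact fun h => h.1
  · intro h
    refine ⟨h, fun j => ?_⟩
    exact absurd (lt_of_le_of_lt (Nat.zero_le _) j.2) h0

theorem first_iff_of_pos {P : Place K F} {e : ν₀} (h0 : 0 < C.n e) :
    C.First e P ↔ P ∈ tube S₀ e ∧
      A.valuation (C.a e ⟨0, h0⟩) < A.valuation (evalAt P (C.u e)) := by
  constructor
  · exact fun h => ⟨h.1, h.2 ⟨0, h0⟩⟩
  · rintro ⟨h1, h2⟩
    refine ⟨h1, fun j => ?_⟩
    have h3 : C.absA ⟨e, j⟩ ≤ C.absA ⟨e, ⟨0, h0⟩⟩ :=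
      (C.a_anti e).antitone (Fin.mk_le_of_le_val (Nat.zero_le _))
    exact lt_of_le_of_lt h3 h2

theorem below_iff_of_last {P : Place K F} {e : ν₀} {i : Fin (C.n e)} (hi : ¬ i.1 + 1 < C.n e) :
    C.Below ⟨e, i⟩ P ↔ P ∈ tube S₀ e ∧
      A.valuation (evalAt P (C.u e)) < A.valuation (C.a e i) := by
  constructor
  · exact fun h => ⟨h.1, h.2.1⟩
  · rintro ⟨h1, h2⟩
    refine ⟨h1, h2, fun j hj => ?_⟩
    exfalso
    have h4 : j.1 < C.n e := j.2
    have h5 : i.1 < j.1 := hj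
    omega

theorem below_iff_of_lt {P : Place K F} {e : ν₀} {i : Fin (C.n e)} (hi : i.1 + 1 < C.n e) :
    C.Below ⟨e, i⟩ P ↔ P ∈ tube S₀ e ∧
      A.valuation (C.a e ⟨i.1 + 1, hi⟩) < A.valuation (evalAt P (C.u e)) ∧
      A.valuation (evalAt P (C.u e)) < A.valuation (C.a e i) := by
  constructor
  · exact fun h => ⟨h.1, h.2.2 ⟨i.1 + 1, hi⟩ (by rw [Fin.lt_def]; simp), h.2.1⟩
  · rintro ⟨h1, h2, h3⟩
    refine ⟨h1, h3, fun j hj => ?_⟩
    have h4 : C.absA ⟨e, j⟩ ≤ C.absA ⟨e, ⟨i.1 + 1, hi⟩⟩ :=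
      (C.a_anti e).antitone (by rw [Fin.le_def]; exact hj)
    exact lt_of_le_of_lt h4 h2

/-! ### No place reduces to a target branch -/

theorem rRef_cases (C : ChainFamily S₀) (P : Place K F) :
    (∃ x c, C.rRef P = C.inrPt x (placeAt (ResidueField A) c)) ∨ C.rRef P = C.inlPt (S₀.r P) := by
  rcases C.cases_place P with ⟨x, hx⟩ | ⟨x, hx⟩ | ⟨e, he⟩ | hno
  · exact Or.inl ⟨x, _, rRef_of_onLevel hx⟩
  · exact Or.inl ⟨x, _, rRef_of_below hx⟩
  · right
    rw [rRef_of_first he]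
    have : S₀.r P = ⟨S₀.src e, S₀.s₁ e⟩ := he.1
    rw [this]
    rfl
  · right
    rw [rRef_of_not_tube hno]
    rfl

theorem rRef_ne_tgtPt (C : ChainFamily S₀) (P : Place K F) (x : ν₀ ⊕ C.X) :
    C.rRef P ≠ C.tgtPt x := by
  intro h
  rcases tgtPt_cases x with ⟨x', h'⟩ | ⟨e', h'⟩
  · rw [h'] at h
    rcases C.rRef_cases P with ⟨x'', c, h2⟩ | h2
    · rw [h2] at h
      exact placeAt_ne_placeInfty _ (inrPt_inj h).2
    · rw [h2] at h
      exact inlPt_ne_inrPt h
  · rw [h'] at h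
    rcases C.rRef_cases P with ⟨x'', c, h2⟩ | h2
    · rw [h2] at h
      exact inlPt_ne_inrPt h.symm
    · rw [h2] at h
      exact S₀.r_ne_tgt P e' (inlPt_injective h)

end ChainFamily

end Fermat.Agent.BR.Refine
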