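import Mathlib
import Fermat.Agent.BR.Refine.Regions

/-!
# Program B (BADRED), node B7.5 (part 5): the refined semistable setup

`C.refined : SS.SemistableSetup A (residue A) (ι₀ ⊕ C.X) (FtR Ft₀ A C.X) (ν₀ ⊕ C.X)` for a chain
family `C` over a semistable setup `S₀`: the model whose special fibre is that of `S₀` with every
node `e` replaced by a chain of `C.n e` exceptional projective lines.
-/

set_option autoImplicit false

namespace Fermat.Agent.BR.Refine

open AlgebraicCurve IsLocalRing Fermat.Agent.Red Fermat.Agent.BR.SS Fermat.Agent.BR.P1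
  Fermat.Agent.BR.AnnulusRed

variable {K : Type} {F : Type*} [Field K] [Field F] [Algebra K F]
  {A : ValuationSubring K} [IsAlgClosed (ResidueField A)]
  {ι₀ : Type} {Ft₀ : ι₀ → Type} [∀ v, Field (Ft₀ v)] [∀ v, Algebra (ResidueField A) (Ft₀ v)]
  {ν₀ : Type}

namespace ChainFamily

variable {S₀ : SemistableSetup (F := F) A (residue A) ι₀ Ft₀ ν₀} (C : ChainFamily S₀)

/-! ### Conservation -/

theorem conservationR (v : ι₀ ⊕ C.X) (y : C.OR v) (hy : C.resR v y ≠ 0) (D : Divisor K F)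
    (hD : ∀ P, D P = P.ord (y : F)) (Q : Place (ResidueField A) (FtR Ft₀ A C.X v))
    (hs : ∀ x, (⟨v, Q⟩ : C.PtR) ≠ C.srcPt x) (ht : ∀ x, (⟨v, Q⟩ : C.PtR) ≠ C.tgtPt x) :
    Finsupp.mapDomain C.rRef D ⟨v, Q⟩ = Q.ord (C.resR v y) := by
  rcases v with v | ⟨e, i⟩
  · -- an old component
    have hs₀ : ∀ e, (⟨v, Q⟩ : Σ v, Place (ResidueField A) (Ft₀ v)) ≠ ⟨S₀.src e, S₀.s₁ e⟩ := by
      intro e h
      apply hs (Sum.inl e)
      rw [srcPt_inl, ← h]
      rfl
    have ht₀ : ∀ e, (⟨v, Q⟩ : Σ v, Place (ResidueField A) (Ft₀ v)) ≠ ⟨S₀.tgt e, S₀.s₂ e⟩ := by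
      intro e h
      apply ht (C.lastEdge e)
      rw [tgtPt_lastEdge, ← h]
      rfl
    have h1 : Finsupp.mapDomain C.rRef D (⟨Sum.inl v, Q⟩ : C.PtR) =
        Finsupp.mapDomain S₀.r D ⟨v, Q⟩ := by
      apply mapDomain_congr_fibre
      intro P _
      rw [rRef_eq_inl_iff]
      constructor
      · exact fun h => h.1
      · intro h
        refine ⟨h, Or.inr fun e he => ?_⟩
        have he' : S₀.r P = ⟨S₀.src e, S₀.s₁ e⟩ := he
        exact hs₀ e (h.symm.trans he')
    rw [h1]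
    exact S₀.conservation v y hy D hD Q hs₀ ht₀
  · -- an exceptional component
    have hQ0 : Q ≠ placeAt (ResidueField A) 0 := by
      rintro rfl
      exact hs (Sum.inr ⟨e, i⟩) rfl
    have hQi : Q ≠ placeInfty (ResidueField A) := by
      rintro rfl
      apply ht (C.prevEdge ⟨e, i⟩)
      rw [tgtPt_prevEdge]
      rfl
    have h1 : Finsupp.mapDomain C.rRef D (⟨Sum.inr ⟨e, i⟩, Q⟩ : C.PtR) =
        Finsupp.mapDomain (redExc A (tube S₀ e) (C.u e) (C.a e i)) D (some Q) := by
      apply mapDomain_congr_fibre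
      intro P _
      rw [rRef_eq_inr_iff, redExc_eq_some_iff]
      constructor
      · rintro (⟨h2, h3⟩ | ⟨_, h3⟩)
        · exact ⟨⟨h2.1, h2.2⟩, h3⟩
        · exact absurd h3 hQ0
      · rintro ⟨⟨h2, h3⟩, h4⟩
        exact Or.inl ⟨⟨h2, h3⟩, h4⟩
    rw [h1]
    exact C.conservation e i y hy D hD Q hQ0 hQi

/-! ### Matching at the nodes -/

theorem node_matchR_aux (x : ν₀ ⊕ C.X) (p : C.PtR) (hp : C.tgtPt x = p) (y : F)
    (h₁ : y ∈ C.OR (C.srcR x)) (h₂ : y ∈ C.OR p.1)
    (hpole : ∀ P, C.rRef P = C.srcPt x → 0 ≤ P.ord y) :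
    ∃ c : ResidueField A, IsValueAt (C.s₁R x) (C.resR (C.srcR x) ⟨y, h₁⟩) c ∧
      IsValueAt p.2 (C.resR p.1 ⟨y, h₂⟩) c := by
  rcases x with e | ⟨e, i⟩
  · by_cases h0 : 0 < C.n e
    · rw [tgtPt_inl_pos h0] at hp
      subst hp
      refine C.match_first e h0 y h₁ h₂ fun P hP hlt => ?_
      apply hpole P
      rw [rRef_eq_srcPt_inl_iff, first_iff_of_pos h0]
      exact ⟨hP, hlt⟩
    · rw [tgtPt_inl_zero h0] at hp
      subst hp
      refine S₀.node_match e y h₁ h₂ fun P hP => ?_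
      apply hpole P
      rw [rRef_eq_srcPt_inl_iff, first_iff_of_zero h0]
      exact hP
  · by_cases hi : i.1 + 1 < C.n e
    · rw [tgtPt_inr_lt hi] at hp
      subst hp
      refine C.match_mid e i hi y h₁ h₂ fun P hP hlt hlt' => ?_
      apply hpole P
      rw [rRef_eq_srcPt_inr_iff, below_iff_of_lt hi]
      exact ⟨hP, hlt, hlt'⟩
    · rw [tgtPt_inr_last hi] at hp
      subst hp
      refine C.match_last e i hi y h₁ h₂ fun P hP hlt => ?_
      apply hpole P
      rw [rRef_eq_srcPt_inr_iff, below_iff_of_last hi]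
      exact ⟨hP, hlt⟩

theorem node_unitR_aux (x : ν₀ ⊕ C.X) (p : C.PtR) (hp : C.tgtPt x = p) (y : F)
    (h₁ : y ∈ C.OR (C.srcR x)) (h₂ : y ∈ C.OR p.1)
    (hpole : ∀ P, C.rRef P = C.srcPt x → 0 ≤ P.ord y)
    (hc : ∃ c : ResidueField A, c ≠ 0 ∧ IsValueAt (C.s₁R x) (C.resR (C.srcR x) ⟨y, h₁⟩) c) :
    ∀ P, C.rRef P = C.srcPt x → P.ord y = 0 := by
  rcases x with e | ⟨e, i⟩
  · by_cases h0 : 0 < C.n e
    · rw [tgtPt_inl_pos h0] at hp
      subst hp
      intro P hP
      rw [rRef_eq_srcPt_inl_iff, first_iff_of_pos h0] at hP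
      refine C.unit_first e h0 y h₁ h₂ (fun P hP hlt => ?_) hc P hP.1 hP.2
      apply hpole P
      rw [rRef_eq_srcPt_inl_iff, first_iff_of_pos h0]
      exact ⟨hP, hlt⟩
    · rw [tgtPt_inl_zero h0] at hp
      subst hp
      intro P hP
      rw [rRef_eq_srcPt_inl_iff, first_iff_of_zero h0] at hP
      refine S₀.node_unit e y h₁ h₂ (fun P hP => ?_) hc P hP
      apply hpole P
      rw [rRef_eq_srcPt_inl_iff, first_iff_of_zero h0]
      exact hP
  · by_cases hi : i.1 + 1 < C.n e
    · rw [tgtPt_inr_lt hi] at hp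
      subst hp
      intro P hP
      rw [rRef_eq_srcPt_inr_iff, below_iff_of_lt hi] at hP
      refine C.unit_mid e i hi y h₁ h₂ (fun P hP hlt hlt' => ?_) hc P hP.1 hP.2.1 hP.2.2
      apply hpole P
      rw [rRef_eq_srcPt_inr_iff, below_iff_of_lt hi]
      exact ⟨hP, hlt, hlt'⟩
    · rw [tgtPt_inr_last hi] at hp
      subst hp
      intro P hP
      rw [rRef_eq_srcPt_inr_iff, below_iff_of_last hi] at hP
      refine C.unit_last e i hi y h₁ h₂ (fun P hP hlt => ?_) hc P hP.1 hP.2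
      apply hpole P
      rw [rRef_eq_srcPt_inr_iff, below_iff_of_last hi]
      exact ⟨hP, hlt⟩

/-! ### The refined setup -/

/-- **The refined semistable setup**: every node `e` of `S₀` is replaced by a chain of `C.n e`
exceptional projective lines. -/
noncomputable def refined :
    SemistableSetup (F := F) A (residue A) (ι₀ ⊕ C.X) (FtR Ft₀ A C.X) (ν₀ ⊕ C.X) where
  O := C.OR
  res := C.resR
  res_surjective := by
    rintro (v | x)
    · exact S₀.res_surjective v
    · exact C.res_surjective x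
  res_eq_zero_iff := by
    rintro (v | x)
    · exact S₀.res_eq_zero_iff v
    · exact C.res_eq_zero_iff x
  algebraMap_mem_iff := by
    rintro (v | x)
    · exact S₀.algebraMap_mem_iff v
    · exact C.algebraMap_mem_iff x
  res_algebraMap := by
    rintro (v | x)
    · exact S₀.res_algebraMap v
    · exact C.res_algebraMap x
  approx := by
    rintro (v | x)
    · exact S₀.approx v
    · exact C.approx x
  O_injective := by
    rintro (v | x) (v' | x') h
    · rw [S₀.O_injective h]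
    · exact absurd h.symm (C.O_ne x' v)
    · exact absurd h (C.O_ne x v')
    · rw [C.O_injective h]
  src := C.srcR
  tgt := fun x => (C.tgtPt x).1
  s₁ := C.s₁R
  s₂ := fun x => (C.tgtPt x).2
  branch_injective := C.branch_injective
  connected := C.connectedR
  r := C.rRef
  r_ne_tgt := fun P x => C.rRef_ne_tgtPt P x
  conservation := fun v y hy D hD Q hs ht => C.conservationR v y hy D hD Q hs ht
  node_match := fun x y h₁ h₂ hpole => C.node_matchR_aux x (C.tgtPt x) rfl y h₁ h₂ hpole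
  node_unit := fun x y h₁ h₂ hpole hc => C.node_unitR_aux x (C.tgtPt x) rfl y h₁ h₂ hpole hc

end ChainFamily

end Fermat.Agent.BR.Refine
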