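import Mathlib
import Fermat.Agent.BR.Refine.Setup
import Fermat.Agent.BR.SS.Bridge
import Fermat.Agent.BR.POneRotPlace

/-!
# Program B (BADRED), node B7.5 (part 7): inertia on the refined model

For an automorphism `g` of `F / K` over an element `σ` of the inertia group of `A` which fixes the
annulus coordinates `C.u e` and acts trivially on the reduction map of the base model `S₀`:

* `isSmoothPlace_refined_iff` : the smooth places of the refined model are the places on the
  circles of the levels and the places outside the tubes of the nodes of `S₀`;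
* `mem_nodePts_inr_iff` : the branch points on an exceptional component are `X = 0` and `X = ∞`;
* `alphaR` : the automorphisms of the components (`1` on the old components, the rotation
  `X = c ↦ X = χ c`, `χ = chi A σ (a e i)`, on the exceptional component `⟨e, i⟩`);
* `compat_refined` : `C.refined.toNodalRed.Compat g (alphaR …)`   (step (R2));
* `secondDiffOK_refined` : `C.refined.toNodalRed.SecondDiffOK v (alphaR … v)`   (step (R3)).
-/

set_option autoImplicit false

namespace Fermat.Agent.BR.Refine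

open AlgebraicCurve IsLocalRing Fermat.Agent.Red Fermat.Agent.BR.SS Fermat.Agent.BR.P1
  Fermat.Agent.BR.AnnulusRed Fermat.Agent.BR.InertiaRed Fermat.Agent.BR.Nodal

variable {K : Type} {F : Type*} [Field K] [Field F] [Algebra K F]
  {A : ValuationSubring K} [IsAlgClosed (ResidueField A)]
  {ι₀ : Type} {Ft₀ : ι₀ → Type} [∀ v, Field (Ft₀ v)] [∀ v, Algebra (ResidueField A) (Ft₀ v)]
  {ν₀ : Type}

namespace ChainFamily

variable {S₀ : SemistableSetup (F := F) A (residue A) ι₀ Ft₀ ν₀} (C : ChainFamily S₀)

/-! ### Smooth places and branch points of the refined model -/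

theorem isBranch_refined_iff (p : C.PtR) :
    C.refined.IsBranch p ↔ ∃ x, p = C.srcPt x ∨ p = C.tgtPt x := Iff.rfl

theorem isSmoothPlace_refined_iff (P : Place K F) :
    C.refined.IsSmoothPlace P ↔ (∃ x, C.OnLevel x P) ∨ ∀ e, P ∉ tube S₀ e := by
  have hr : C.refined.r P = C.rRef P := rfl
  unfold SemistableSetup.IsSmoothPlace
  rw [isBranch_refined_iff, hr]
  constructor
  · intro h
    rcases C.cases_place P with ⟨x, hx⟩ | ⟨x, hx⟩ | ⟨e, he⟩ | hno
    · exact Or.inl ⟨x, hx⟩
    · exact absurd ⟨Sum.inr x, Or.inl (rRef_eq_srcPt_inr_iff.2 hx)⟩ h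
    · exact absurd ⟨Sum.inl e, Or.inl (rRef_eq_srcPt_inl_iff.2 he)⟩ h
    · exact Or.inr hno
  · rintro (⟨x, hx⟩ | hno) ⟨x', h | h⟩
    · rcases x' with e | x'
      · exact (rRef_eq_srcPt_inl_iff.1 h).not_onLevel hx
      · exact (rRef_eq_srcPt_inr_iff.1 h).not_onLevel hx
    · exact C.rRef_ne_tgtPt P x' h
    · rcases x' with e | x'
      · exact hno e (rRef_eq_srcPt_inl_iff.1 h).1
      · exact hno _ (rRef_eq_srcPt_inr_iff.1 h).1
    · exact C.rRef_ne_tgtPt P x' h

theorem mem_nodePts_inr_iff (x : C.X)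
    (Q : Place (ResidueField A) (RatFunc (ResidueField A))) :
    C.refined.IsBranch (⟨Sum.inr x, Q⟩ : C.PtR) ↔
      Q = placeAt (ResidueField A) 0 ∨ Q = placeInfty (ResidueField A) := by
  rw [isBranch_refined_iff]
  constructor
  · rintro ⟨x', h | h⟩
    · rcases x' with e | x'
      · rw [srcPt_inl] at h
        exact absurd h.symm inlPt_ne_inrPt
      · rw [srcPt_inr] at h
        exact Or.inl (inrPt_inj h).2
    · rcases tgtPt_cases x' with ⟨x'', h'⟩ | ⟨e', h'⟩
      · rw [h'] at h
        exact Or.inr (inrPt_inj h).2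
      · rw [h'] at h
        exact absurd h.symm inlPt_ne_inrPt
  · rintro (rfl | rfl)
    · exact ⟨Sum.inr x, Or.inl rfl⟩
    · exact ⟨C.prevEdge x, Or.inr (tgtPt_prevEdge x).symm⟩

/-! ### Invariance of the positions -/

section Invariance

variable {C}
variable {g : SemilinearAut K F} (hr₀ : ∀ P, S₀.r (g • P) = S₀.r P)
  (habs : ∀ e P, C.absU e (g • P) = C.absU e P)

include hr₀ in
theorem smul_mem_tube_iff {e : ν₀} {P : Place K F} : g • P ∈ tube S₀ e ↔ P ∈ tube S₀ e := by
  unfold tube
  rw [Set.mem_setOf_eq, Set.mem_setOf_eq, hr₀ P]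

include hr₀ habs in
theorem onLevel_smul_iff {x : C.X} {P : Place K F} : C.OnLevel x (g • P) ↔ C.OnLevel x P := by
  unfold OnLevel
  rw [smul_mem_tube_iff hr₀, habs]

end Invariance

/-! ### The automorphisms of the components -/

/-- The automorphisms of the components of the refined model attached to rotation factors `χ`. -/
noncomputable def alphaR (χ : C.X → ResidueField A) (hχ : ∀ x, χ x ≠ 0) :
    ∀ v : ι₀ ⊕ C.X, SemilinearAut (ResidueField A) (FtR Ft₀ A C.X v)
  | Sum.inl _ => 1
  | Sum.inr x => Fermat.Agent.BR.POne.rotChi (χ x) (hχ x)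

/-- **Compatibility (R2)**: `g` acts on the reductions of the refined model through `alphaR χ`,
as soon as it acts trivially on the reductions of the base model, preserves the circles, and
rotates the angular reductions on the circle of the level `x` by `χ x`. -/
theorem compat_refined {g : SemilinearAut K F} (hr₀ : ∀ P, S₀.r (g • P) = S₀.r P)
    (habs : ∀ e P, C.absU e (g • P) = C.absU e P)
    (χ : C.X → ResidueField A) (hχ : ∀ x, χ x ≠ 0)
    (hrot : ∀ (x : C.X) (P : Place K F), C.OnLevel x P →
      ubar A (C.u x.1) (C.a x.1 x.2) (g • P) = χ x * ubar A (C.u x.1) (C.a x.1 x.2) P) :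
    C.refined.toNodalRed.Compat g (C.alphaR χ hχ) := by
  have hsm : ∀ P, C.refined.IsSmoothPlace P ↔ C.refined.IsSmoothPlace (g • P) := by
    intro P
    rw [isSmoothPlace_refined_iff, isSmoothPlace_refined_iff]
    constructor
    · rintro (⟨x, hx⟩ | hno)
      · exact Or.inl ⟨x, (onLevel_smul_iff hr₀ habs).2 hx⟩
      · exact Or.inr fun e he => hno e ((smul_mem_tube_iff hr₀).1 he)
    · rintro (⟨x, hx⟩ | hno)
      · exact Or.inl ⟨x, (onLevel_smul_iff hr₀ habs).1 hx⟩
      · exact Or.inr fun e he => hno e ((smul_mem_tube_iff hr₀).2 he)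
  apply SemistableSetup.toNodalRed_compat
  · intro P hP
    have hr : ∀ P, C.refined.r P = C.rRef P := fun _ => rfl
    rw [hr, hr]
    rw [isSmoothPlace_refined_iff] at hP
    rcases hP with ⟨x, hx⟩ | hno
    · rw [rRef_of_onLevel hx, rRef_of_onLevel ((onLevel_smul_iff hr₀ habs).2 hx), hrot x P hx]
      show (⟨Sum.inr x, placeAt (ResidueField A)
          (χ x * ubar A (C.u x.1) (C.a x.1 x.2) P)⟩ : C.PtR) =
        ⟨Sum.inr x, Fermat.Agent.BR.POne.rotChi (χ x) (hχ x) •
          placeAt (ResidueField A) (ubar A (C.u x.1) (C.a x.1 x.2) P)⟩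
      rw [Fermat.Agent.BR.POne.rotChi_smul_placeAt]
    · have hno' : ∀ e, g • P ∉ tube S₀ e := fun e he => hno e ((smul_mem_tube_iff hr₀).1 he)
      rw [rRef_of_not_tube hno, rRef_of_not_tube hno', hr₀ P]
      show (⟨Sum.inl (S₀.r P).1, (S₀.r P).2⟩ : C.PtR) =
        ⟨Sum.inl (S₀.r P).1, (1 : SemilinearAut (ResidueField A) (Ft₀ (S₀.r P).1)) • (S₀.r P).2⟩
      rw [one_smul]
  · exact fun P hP => (hsm P).1 hP
  · exact fun P hP h => hP ((hsm P).2 h)

/-- **Second differences (R3)** on the components of the refined model. -/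
theorem secondDiffOK_refined (χ : C.X → ResidueField A) (hχ : ∀ x, χ x ≠ 0)
    (v : ι₀ ⊕ C.X) : C.refined.toNodalRed.SecondDiffOK v (C.alphaR χ hχ v) := by
  rcases v with v | x
  · exact NodalRed.secondDiffOK_one C.refined.toNodalRed (Sum.inl v)
  · intro B hB
    obtain ⟨ρ, hρ0, hdiv, h0, hinf⟩ :=
      Fermat.Agent.BR.POne.exists_secondDiff_rotChi (hχ x) B (by
        intro Q hQ
        have h1 := hB Q hQ
        constructor
        · rintro rfl
          exact h1 ((C.mem_nodePts_inr_iff x _).2 (Or.inl rfl))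
        · rintro rfl
          exact h1 ((C.mem_nodePts_inr_iff x _).2 (Or.inr rfl)))
    refine ⟨ρ, hρ0, hdiv, ?_⟩
    intro Q hQ
    rcases (C.mem_nodePts_inr_iff x Q).1 hQ with rfl | rfl
    · exact h0
    · exact hinf

end ChainFamily

end Fermat.Agent.BR.Refine
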