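import Mathlib
import Fermat.Agent.BR.Refine.Setup
import Fermat.Agent.BR.SS.Main
import Fermat.Agent.BR.POneGenus

/-!
# Program B (BADRED), node B7.5 (part 6): genus bookkeeping for the refined model

Every exceptional component adds one vertex (of genus `0`) and one edge to the dual graph, so the
genus equality of `SS.MainStatement` for `C.refined` follows from that of `S₀`; the main theorem of
block B3 (`SS.mainStatement`) then gives `NoTorsionInKernel C.refined`.
-/

set_option autoImplicit false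

namespace Fermat.Agent.BR.Refine

open AlgebraicCurve IsLocalRing Fermat.Agent.Red Fermat.Agent.BR.SS Fermat.Agent.BR.P1
  Fermat.Agent.BR.AnnulusRed

variable {K : Type} {F : Type*} [Field K] [Field F] [Algebra K F]
  {A : ValuationSubring K} [IsAlgClosed (ResidueField A)]
  {ι₀ : Type} {Ft₀ : ι₀ → Type} [∀ v, Field (Ft₀ v)] [∀ v, Algebra (ResidueField A) (Ft₀ v)]
  {ν₀ : Type}

namespace ChainFamily

variable {S₀ : SemistableSetup (F := F) A (residue A) ι₀ Ft₀ ν₀} (C : ChainFamily S₀)

theorem riemannPkgR (hFt : ∀ v, RiemannPkg (ResidueField A) (Ft₀ v)) :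
    ∀ v : ι₀ ⊕ C.X, RiemannPkg (ResidueField A) (FtR Ft₀ A C.X v)
  | Sum.inl v => hFt v
  | Sum.inr _ => Fermat.Agent.BR.POne.riemannPkg_ratFunc (ResidueField A)

theorem genusFF_FtR_inr (x : C.X) :
    genusFF (ResidueField A) (FtR Ft₀ A C.X (Sum.inr x)) = 0 :=
  Fermat.Agent.BR.POne.genusFF_ratFunc (ResidueField A)

/-- The genus equality of `SS.MainStatement` is inherited by the refined model. -/
theorem genus_refined [Fintype ι₀] [Fintype ν₀]
    (hg : (genusFF K F : ℤ) = ∑ v, (genusFF (ResidueField A) (Ft₀ v) : ℤ)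
      + Fintype.card ν₀ - Fintype.card ι₀ + 1) :
    (genusFF K F : ℤ) = ∑ v : ι₀ ⊕ C.X, (genusFF (ResidueField A) (FtR Ft₀ A C.X v) : ℤ)
      + Fintype.card (ν₀ ⊕ C.X) - Fintype.card (ι₀ ⊕ C.X) + 1 := by
  rw [Fintype.sum_sum_type, Fintype.card_sum, Fintype.card_sum]
  have h1 : ∑ x : C.X, (genusFF (ResidueField A) (FtR Ft₀ A C.X (Sum.inr x)) : ℤ) = 0 := by
    apply Finset.sum_eq_zero
    intro x _
    rw [C.genusFF_FtR_inr x]
    rfl
  have h2 : ∑ v : ι₀, (genusFF (ResidueField A) (FtR Ft₀ A C.X (Sum.inl v)) : ℤ) =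
      ∑ v, (genusFF (ResidueField A) (Ft₀ v) : ℤ) := rfl
  rw [h1, h2, hg]
  push_cast
  ring

/-- **No torsion in the kernel of reduction for the refined model** (from the main theorem of
block B3). -/
theorem noTorsionInKernel_refined [Fintype ι₀] [Fintype ν₀] [IsAlgClosed K] (hA : IsRankOne A)
    (hF : RiemannPkg K F) (hFt : ∀ v, RiemannPkg (ResidueField A) (Ft₀ v))
    (hg : (genusFF K F : ℤ) = ∑ v, (genusFF (ResidueField A) (Ft₀ v) : ℤ)
      + Fintype.card ν₀ - Fintype.card ι₀ + 1) :
    NoTorsionInKernel C.refined :=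
  mainStatement C.refined inferInstance inferInstance hA hF (C.riemannPkgR hFt)
    (C.genus_refined hg)

end ChainFamily

end Fermat.Agent.BR.Refine
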