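import Mathlib
import Fermat.Agent.BR.Refine.Genus
import Fermat.Agent.BR.Refine.Galois

/-!
# Program B (BADRED), node B7.5 (part 8): `HasNodalReductions` from a chain provider

* `ChainProvider S₀` : chain families over the semistable setup `S₀` for ALL finite families of
  admissible gauges in the annuli of the nodes (the deliverable of block B7.4), with fixed annulus
  coordinates `u e`;
* `exists_levels` : the finitely many circles of the annulus of `e` met by a finite set `T` of
  places, sorted by decreasing radius, with witnesses;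
* `hasNodalReductions_of_chainProvider` : **the assembly**: for `σ` in the inertia group of `A`
  and `g` over `σ` fixing the annulus coordinates and acting trivially on the reductions of the
  base model `S₀`, `Nodal.HasNodalReductions (ResidueField A) g`  (hence, through
  `Nodal.unipInertia_of_hasNodalReductions`, `(g - 1)² = 0` on the prime-to-residue-characteristic
  torsion of `Pic⁰`).

Orientation convention (cf. `Refine/Chain.lean`): level `0` is next to `src e`, the radii
`|a e i|` decrease with `i`; so `src e` is the component on which the annulus coordinate `u e` is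
a unit (`|u e (P)| → 1` towards `src e`), and `X = ∞` on an exceptional component points towards
`src e`, `X = 0` towards `tgt e`.
-/

set_option autoImplicit false

namespace Fermat.Agent.BR.Refine

open AlgebraicCurve IsLocalRing Fermat.Agent.Red Fermat.Agent.BR.SS Fermat.Agent.BR.P1
  Fermat.Agent.BR.AnnulusRed Fermat.Agent.BR.InertiaRed Fermat.Agent.BR.Nodal

variable {K : Type} {F : Type*} [Field K] [Field F] [Algebra K F]
  {A : ValuationSubring K} [IsAlgClosed (ResidueField A)]
  {ι₀ : Type} {Ft₀ : ι₀ → Type} [∀ v, Field (Ft₀ v)] [∀ v, Algebra (ResidueField A) (Ft₀ v)]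
  {ν₀ : Type}

/-- Chain families for all finite families of admissible gauges (deliverable of block B7.4). -/
structure ChainProvider (S₀ : SemistableSetup (F := F) A (residue A) ι₀ Ft₀ ν₀) where
  /-- the annulus coordinates -/
  u : ν₀ → F
  /-- the admissible gauges of the annulus of `e` (`|thick e| < |a| < 1`) -/
  adm : ν₀ → K → Prop
  adm_ne : ∀ e a, adm e a → a ≠ 0
  adm_tube : ∀ e P, P ∈ tube S₀ e → adm e (evalAt P (u e))
  chain : ∀ (n : ν₀ → ℕ) (a : ∀ e, Fin (n e) → K), (∀ e i, adm e (a e i)) →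
    (∀ e, StrictAnti fun i => A.valuation (a e i)) →
    ∃ C : ChainFamily S₀, C.u = u ∧ ∃ hn : C.n = n,
      ∀ e (i : Fin (C.n e)), C.a e i = a e (Fin.cast (congrFun hn e) i)

/-- The circles of the annulus of `e` met by a finite set of places, sorted by decreasing
radius. -/
theorem exists_levels (S₀ : SemistableSetup (F := F) A (residue A) ι₀ Ft₀ ν₀) (u : F) (e : ν₀)
    (T : Finset (Place K F)) :
    ∃ (n : ℕ) (P : Fin n → Place K F), (∀ i, P i ∈ tube S₀ e) ∧
      StrictAnti (fun i => A.valuation (evalAt (P i) u)) ∧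
      ∀ Q ∈ T, Q ∈ tube S₀ e → ∃ i, A.valuation (evalAt Q u) = A.valuation (evalAt (P i) u) := by
  classical
  let Te : Finset (Place K F) := T.filter fun Q => Q ∈ tube S₀ e
  let val : Place K F → ValuationSubring.ValueGroup A := fun Q => A.valuation (evalAt Q u)
  let Λ : Finset (ValuationSubring.ValueGroup A) := Te.image val
  let emb := Λ.orderEmbOfFin rfl
  have hex : ∀ i : Fin Λ.card, ∃ Q, Q ∈ Te ∧ val Q = emb (Fin.rev i) := by
    intro i
    have h := Finset.orderEmbOfFin_mem Λ rfl (Fin.rev i)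
    rw [Finset.mem_image] at h
    obtain ⟨Q, hQ, h⟩ := h
    exact ⟨Q, hQ, h⟩
  choose P hP using hex
  refine ⟨Λ.card, P, ?_, ?_, ?_⟩
  · intro i
    exact (Finset.mem_filter.1 (hP i).1).2
  · intro i j hij
    show val (P j) < val (P i)
    rw [(hP i).2, (hP j).2]
    exact emb.strictMono (Fin.rev_lt_rev.2 hij)
  · intro Q hQ hQe
    have h1 : val Q ∈ Λ := Finset.mem_image.2 ⟨Q, Finset.mem_filter.2 ⟨hQ, hQe⟩, rfl⟩
    have h2 : val Q ∈ Set.range emb := by
      rw [Finset.range_orderEmbOfFin]
      exact h1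
    obtain ⟨j, hj⟩ := h2
    refine ⟨Fin.rev j, ?_⟩
    show val Q = val (P (Fin.rev j))
    rw [(hP (Fin.rev j)).2, Fin.rev_rev]
    exact hj.symm

/-- **The assembly of block B7**: `HasNodalReductions` for an inertia element from a
semistable base model and a chain provider. -/
theorem hasNodalReductions_of_chainProvider [Fintype ι₀] [Fintype ν₀] [IsAlgClosed K]
    (S₀ : SemistableSetup (F := F) A (residue A) ι₀ Ft₀ ν₀) (hA : IsRankOne A)
    (hF : RiemannPkg K F) (hFt : ∀ v, RiemannPkg (ResidueField A) (Ft₀ v))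
    (hgen : (genusFF K F : ℤ) = ∑ v, (genusFF (ResidueField A) (Ft₀ v) : ℤ)
      + Fintype.card ν₀ - Fintype.card ι₀ + 1)
    (Pr : ChainProvider S₀)
    {K₀ : Type*} [Field K₀] [Algebra K₀ K] {σ : K ≃ₐ[K₀] K} (hσ : σ ∈ A.inertiaSubgroupIn K₀)
    (hval : ∀ x : K, A.valuation (σ x) = A.valuation x)
    (g : SemilinearAut K F) (hgσ : SemilinearAut.baseAut g = σ.toRingEquiv)
    (hu : ∀ e, g • Pr.u e = Pr.u e)
    (hr₀ : ∀ P, S₀.r (g • P) = S₀.r P) :
    HasNodalReductions (ResidueField A) g := by
  intro T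
  choose n P hPt hPanti hPcov using fun e => exists_levels S₀ (Pr.u e) e T
  obtain ⟨C, hCu, hn, ha⟩ := Pr.chain n (fun e i => evalAt (P e i) (Pr.u e))
    (fun e i => Pr.adm_tube e _ (hPt e i)) hPanti
  have hu' : ∀ e, g • C.u e = C.u e := fun e => by rw [hCu]; exact hu e
  have habs : ∀ e Q, C.absU e (g • Q) = C.absU e Q := fun e Q =>
    valuation_evalAt_smul_of_fixed A hval g hgσ (hu' e) Q
  let χ : C.X → ResidueField A := fun x => chi A σ (C.a x.1 x.2)
  have hχ : ∀ x, χ x ≠ 0 := fun x => chi_ne_zero A (C.a_ne x.1 x.2) (hval _)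
  have hrot : ∀ (x : C.X) (Q : Place K F), C.OnLevel x Q →
      ubar A (C.u x.1) (C.a x.1 x.2) (g • Q) = χ x * ubar A (C.u x.1) (C.a x.1 x.2) Q :=
    fun x Q hx => ubar_smul A hσ hval g hgσ (hu' x.1) (C.a_ne x.1 x.2) hx.2
  refine ⟨C.refined.toNodalRed,
    ntk_of_noTorsionInKernel _ (C.noTorsionInKernel_refined hA hF hFt hgen), ?_,
    C.alphaR χ hχ, C.compat_refined hr₀ habs χ hχ hrot, C.secondDiffOK_refined χ hχ⟩
  intro Q hQ
  rw [SemistableSetup.toNodalRed_isSmooth_iff, ChainFamily.isSmoothPlace_refined_iff]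
  by_cases hex : ∃ e, Q ∈ tube S₀ e
  · obtain ⟨e, he⟩ := hex
    obtain ⟨i₀, hi₀⟩ := hPcov e Q hQ he
    refine Or.inl ⟨⟨e, Fin.cast (congrFun hn e).symm i₀⟩, he, ?_⟩
    show A.valuation (evalAt Q (C.u e)) = A.valuation (C.a e (Fin.cast (congrFun hn e).symm i₀))
    rw [ha, hCu, hi₀]
    simp
  · push Not at hex
    exact Or.inr hex

end Fermat.Agent.BR.Refine
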