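import Mathlib
import Fermat.Agent.BR.Refine.Chain
import Fermat.Agent.BR.Fact.Annulus

/-!
# Program B (BADRED), node B7.CF-b / (C5): the fields `match_*` / `unit_*` of `Refine.ChainFamily`
from the factorisation on the annulus

`S₀` a semistable setup, `e` a node, `u` the annulus coordinate, `thick` the thickness element,
`TU` the class of tube units.

* `NodeFact S₀ e u thick TU` : the contract at the node `e`: `Fact.TubeFact` on the tube of `e`
  (values, simple zeros, injectivity, factorisation), the values `u(P)` lie in the open annulus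
  `|thick| < |u(P)| < 1`, `u` is integral on `src e` with residue vanishing at the branch `s₁ e`,
  `thick / u` is integral on `tgt e` with residue vanishing at `s₂ e`, tube units have the value `1`
  at both branches;
* `LevelFact u TU a O res` : the contract for an exceptional component at the gauge `a`:
  `O` is a gauge component (`Fact.GaugeComp`), `res (a⁻¹ u) = X`, tube units have residue `1`;
* `NodeFact.match_first` … `NodeFact.unit_last` : the six fields `match_first`, `unit_first`,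
  `match_mid`, `unit_mid`, `match_last`, `unit_last` of `Refine.ChainFamily`, in the exact shape
  of the structure fields (for given levels);
* `NodeFact.node_match`, `NodeFact.node_unit` : the same between `src e` and `tgt e` directly (the
  fields of `SS.SemistableSetup`, for a node without levels).

The proofs are `Fact.TubeFact.match_unit` (convexity of the Newton polygon on the sub-annulus)
applied to the gauge components `src e` (gauge `1`), `tgt e` (gauge `thick`) and the levels.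
-/

set_option autoImplicit false

namespace Fermat.Agent.BR.Fact

open AlgebraicCurve IsLocalRing Fermat.Agent.Red Fermat.Agent.BR.SS Fermat.Agent.BR.P1
  Fermat.Agent.BR.Refine

variable {K : Type} {F : Type*} [Field K] [Field F] [Algebra K F]
  {A : ValuationSubring K} [IsAlgClosed (ResidueField A)]
  {ι₀ : Type} {Ft₀ : ι₀ → Type} [∀ v, Field (Ft₀ v)] [∀ v, Algebra (ResidueField A) (Ft₀ v)]
  {ν₀ : Type}

/-- The contract at a node. -/
structure NodeFact (S₀ : SemistableSetup (F := F) A (residue A) ι₀ Ft₀ ν₀) (e : ν₀) (u : F)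
    (thick : K) (TU : F → Prop) : Prop where
  tubeFact : TubeFact (tube S₀ e) u TU
  thick_ne : thick ≠ 0
  lt_one : ∀ P ∈ tube S₀ e, A.valuation (evalAt P u) < 1
  thick_lt : ∀ P ∈ tube S₀ e, A.valuation thick < A.valuation (evalAt P u)
  u_src : ∃ h : u ∈ S₀.O (S₀.src e), 0 < (S₀.s₁ e).ord (S₀.res (S₀.src e) ⟨u, h⟩)
  v_tgt : ∃ h : thick • u⁻¹ ∈ S₀.O (S₀.tgt e),
    0 < (S₀.s₂ e).ord (S₀.res (S₀.tgt e) ⟨thick • u⁻¹, h⟩)
  tu_src : ∀ ε : F, TU ε → ValAt (S₀.O (S₀.src e)) (S₀.res (S₀.src e)) (S₀.s₁ e) ε 1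
  tu_tgt : ∀ ε : F, TU ε → ValAt (S₀.O (S₀.tgt e)) (S₀.res (S₀.tgt e)) (S₀.s₂ e) ε 1

/-- The contract for an exceptional component at the gauge `a`. -/
structure LevelFact (u : F) (TU : F → Prop) (a : K) (O : ValuationSubring F)
    (res : O →+* RatFunc (ResidueField A)) : Prop where
  gauge : GaugeComp A u a O res
  coord_res : res ⟨a⁻¹ • u, gauge.coord_mem⟩ = RatFunc.X
  tu : ∀ ε : F, TU ε → ∃ h : ε ∈ O, res ⟨ε, h⟩ = 1

namespace LevelFact

variable {u : F} {TU : F → Prop} {a : K} {O : ValuationSubring F}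
  {res : O →+* RatFunc (ResidueField A)} (L : LevelFact u TU a O res)

include L

theorem T_eq : L.gauge.T = RatFunc.X := L.coord_res

theorem inner : 0 < (placeAt (ResidueField A) 0).ord L.gauge.T := by
  rw [L.T_eq]
  have := ord_placeAt_X_sub (0 : ResidueField A)
  rw [map_zero, sub_zero] at this
  omega

theorem outer : (placeInfty (ResidueField A)).ord L.gauge.T < 0 := by
  rw [L.T_eq, ord_placeInfty_X]
  omega

theorem valAt_tu (Q : Place (ResidueField A) (RatFunc (ResidueField A))) {ε : F} (hε : TU ε) :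
    ValAt O res Q ε 1 := by
  obtain ⟨h, hr⟩ := L.tu ε hε
  exact ⟨h, by rw [hr]; exact isValueAt_one Q⟩

end LevelFact

namespace NodeFact

variable {S₀ : SemistableSetup (F := F) A (residue A) ι₀ Ft₀ ν₀} {e : ν₀} {u : F} {thick : K}
  {TU : F → Prop} (N : NodeFact S₀ e u thick TU)

include N

/-- the component `src e` as a gauge component at the gauge `1` -/
theorem gaugeSrc : GaugeComp A u 1 (S₀.O (S₀.src e)) (S₀.res (S₀.src e)) where
  a_ne := one_ne_zero
  res_eq_zero_iff := S₀.res_eq_zero_iff _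
  const_mem := S₀.algebraMap_mem_iff _
  const_res := S₀.res_algebraMap _
  coord_mem := by
    obtain ⟨h, -⟩ := N.u_src
    rwa [inv_one, one_smul]

theorem inner_src : 0 < (S₀.s₁ e).ord N.gaugeSrc.T := by
  obtain ⟨h, hpos⟩ := N.u_src
  have e1 : N.gaugeSrc.T = S₀.res (S₀.src e) ⟨u, h⟩ := by
    unfold GaugeComp.T
    congr 1
    exact Subtype.ext (show (1 : K)⁻¹ • u = u by rw [inv_one, one_smul])
  rw [e1]
  exact hpos

theorem u_ne_zero : u ≠ 0 :=
  N.gaugeSrc.u_ne_zero (N.gaugeSrc.T_ne_zero_of_ord_ne N.inner_src.ne')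

omit [IsAlgClosed (ResidueField A)] [∀ v, Algebra (ResidueField A) (Ft₀ v)] N in
theorem v_inv_eq : (thick • u⁻¹)⁻¹ = thick⁻¹ • u := by
  rw [Algebra.smul_def, Algebra.smul_def, mul_inv, inv_inv, map_inv₀]

/-- the component `tgt e` as a gauge component at the gauge `thick` -/
theorem gaugeTgt : GaugeComp A u thick (S₀.O (S₀.tgt e)) (S₀.res (S₀.tgt e)) where
  a_ne := N.thick_ne
  res_eq_zero_iff := S₀.res_eq_zero_iff _
  const_mem := S₀.algebraMap_mem_iff _
  const_res := S₀.res_algebraMap _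
  coord_mem := by
    obtain ⟨h, hpos⟩ := N.v_tgt
    have h0 : S₀.res (S₀.tgt e) ⟨thick • u⁻¹, h⟩ ≠ 0 := by
      intro h0
      rw [h0, Place.ord_zero] at hpos
      exact lt_irrefl _ hpos
    obtain ⟨h', -⟩ := inv_mem_of_res_ne_zero (S₀.res_eq_zero_iff _) h h0
    rwa [v_inv_eq] at h'

theorem outer_tgt : (S₀.s₂ e).ord N.gaugeTgt.T < 0 := by
  obtain ⟨h, hpos⟩ := N.v_tgt
  have h0 : S₀.res (S₀.tgt e) ⟨thick • u⁻¹, h⟩ ≠ 0 := by
    intro h0
    rw [h0, Place.ord_zero] at hpos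
    exact lt_irrefl _ hpos
  obtain ⟨h', hr⟩ := inv_mem_of_res_ne_zero (S₀.res_eq_zero_iff _) h h0
  have e1 : N.gaugeTgt.T = (S₀.res (S₀.tgt e) ⟨thick • u⁻¹, h⟩)⁻¹ := by
    rw [← hr]
    unfold GaugeComp.T
    congr 1
    exact Subtype.ext v_inv_eq.symm
  rw [e1, Place.ord_inv]
  omega

/-! ### the six fields -/

section First

variable {a₀ : K} {O₀ : ValuationSubring F} {res₀ : O₀ →+* RatFunc (ResidueField A)}

/-- the field `match_first` of `Refine.ChainFamily` -/
theorem match_first (L₀ : LevelFact u TU a₀ O₀ res₀) (ha₀ : A.valuation a₀ < 1)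
    (y : F) (h₁ : y ∈ S₀.O (S₀.src e)) (h₂ : y ∈ O₀)
    (hpole : ∀ P ∈ tube S₀ e, A.valuation a₀ < A.valuation (evalAt P u) → 0 ≤ P.ord y) :
    ∃ c : ResidueField A, IsValueAt (S₀.s₁ e) (S₀.res (S₀.src e) ⟨y, h₁⟩) c ∧
      IsValueAt (placeInfty (ResidueField A)) (res₀ ⟨y, h₂⟩) c :=
  (N.tubeFact.match_unit N.gaugeSrc L₀.gauge N.inner_src L₀.outer
    (by rw [map_one]; exact ha₀) N.tu_src (fun _ hε => L₀.valAt_tu _ hε) h₁ h₂
    (fun P hP h _ => hpole P hP h)).1

/-- the field `unit_first` of `Refine.ChainFamily` -/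
theorem unit_first (L₀ : LevelFact u TU a₀ O₀ res₀) (ha₀ : A.valuation a₀ < 1)
    (y : F) (h₁ : y ∈ S₀.O (S₀.src e)) (h₂ : y ∈ O₀)
    (hpole : ∀ P ∈ tube S₀ e, A.valuation a₀ < A.valuation (evalAt P u) → 0 ≤ P.ord y)
    (hval : ∃ c : ResidueField A, c ≠ 0 ∧
      IsValueAt (S₀.s₁ e) (S₀.res (S₀.src e) ⟨y, h₁⟩) c) :
    ∀ P ∈ tube S₀ e, A.valuation a₀ < A.valuation (evalAt P u) → P.ord y = 0 := by
  intro P hP h
  refine (N.tubeFact.match_unit N.gaugeSrc L₀.gauge N.inner_src L₀.outer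
    (by rw [map_one]; exact ha₀) N.tu_src (fun _ hε => L₀.valAt_tu _ hε) h₁ h₂
    (fun P hP h _ => hpole P hP h)).2 hval P hP h ?_
  rw [map_one]
  exact N.lt_one P hP

end First

section Mid

variable {a₁ a₂ : K} {O₁ O₂ : ValuationSubring F}
  {res₁ : O₁ →+* RatFunc (ResidueField A)} {res₂ : O₂ →+* RatFunc (ResidueField A)}

omit N in
/-- the field `match_mid` of `Refine.ChainFamily` (levels at the gauges `a₁`, `a₂`,
`|a₂| < |a₁|`) -/
theorem match_mid {T : Set (Place K F)} (hT : TubeFact T u TU) (L₁ : LevelFact u TU a₁ O₁ res₁)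
    (L₂ : LevelFact u TU a₂ O₂ res₂)
    (hlt : A.valuation a₂ < A.valuation a₁) (y : F) (h₁ : y ∈ O₁) (h₂ : y ∈ O₂)
    (hpole : ∀ P ∈ T, A.valuation a₂ < A.valuation (evalAt P u) →
      A.valuation (evalAt P u) < A.valuation a₁ → 0 ≤ P.ord y) :
    ∃ c : ResidueField A, IsValueAt (placeAt (ResidueField A) 0) (res₁ ⟨y, h₁⟩) c ∧
      IsValueAt (placeInfty (ResidueField A)) (res₂ ⟨y, h₂⟩) c :=
  (hT.match_unit L₁.gauge L₂.gauge L₁.inner L₂.outer hlt
    (fun _ hε => L₁.valAt_tu _ hε) (fun _ hε => L₂.valAt_tu _ hε) h₁ h₂ hpole).1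

omit N in
/-- the field `unit_mid` of `Refine.ChainFamily` -/
theorem unit_mid {T : Set (Place K F)} (hT : TubeFact T u TU) (L₁ : LevelFact u TU a₁ O₁ res₁)
    (L₂ : LevelFact u TU a₂ O₂ res₂)
    (hlt : A.valuation a₂ < A.valuation a₁) (y : F) (h₁ : y ∈ O₁) (h₂ : y ∈ O₂)
    (hpole : ∀ P ∈ T, A.valuation a₂ < A.valuation (evalAt P u) →
      A.valuation (evalAt P u) < A.valuation a₁ → 0 ≤ P.ord y)
    (hval : ∃ c : ResidueField A, c ≠ 0 ∧
      IsValueAt (placeAt (ResidueField A) 0) (res₁ ⟨y, h₁⟩) c) :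
    ∀ P ∈ T, A.valuation a₂ < A.valuation (evalAt P u) →
      A.valuation (evalAt P u) < A.valuation a₁ → P.ord y = 0 :=
  (hT.match_unit L₁.gauge L₂.gauge L₁.inner L₂.outer hlt
    (fun _ hε => L₁.valAt_tu _ hε) (fun _ hε => L₂.valAt_tu _ hε) h₁ h₂ hpole).2 hval

end Mid

section Last

variable {a₁ : K} {O₁ : ValuationSubring F} {res₁ : O₁ →+* RatFunc (ResidueField A)}

/-- the field `match_last` of `Refine.ChainFamily` -/
theorem match_last (L₁ : LevelFact u TU a₁ O₁ res₁) (ha₁ : A.valuation thick < A.valuation a₁)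
    (y : F) (h₁ : y ∈ O₁) (h₂ : y ∈ S₀.O (S₀.tgt e))
    (hpole : ∀ P ∈ tube S₀ e, A.valuation (evalAt P u) < A.valuation a₁ → 0 ≤ P.ord y) :
    ∃ c : ResidueField A, IsValueAt (placeAt (ResidueField A) 0) (res₁ ⟨y, h₁⟩) c ∧
      IsValueAt (S₀.s₂ e) (S₀.res (S₀.tgt e) ⟨y, h₂⟩) c :=
  (N.tubeFact.match_unit L₁.gauge N.gaugeTgt L₁.inner N.outer_tgt ha₁
    (fun _ hε => L₁.valAt_tu _ hε) N.tu_tgt h₁ h₂ (fun P hP _ h => hpole P hP h)).1

/-- the field `unit_last` of `Refine.ChainFamily` -/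
theorem unit_last (L₁ : LevelFact u TU a₁ O₁ res₁) (ha₁ : A.valuation thick < A.valuation a₁)
    (y : F) (h₁ : y ∈ O₁) (h₂ : y ∈ S₀.O (S₀.tgt e))
    (hpole : ∀ P ∈ tube S₀ e, A.valuation (evalAt P u) < A.valuation a₁ → 0 ≤ P.ord y)
    (hval : ∃ c : ResidueField A, c ≠ 0 ∧
      IsValueAt (placeAt (ResidueField A) 0) (res₁ ⟨y, h₁⟩) c) :
    ∀ P ∈ tube S₀ e, A.valuation (evalAt P u) < A.valuation a₁ → P.ord y = 0 := by
  intro P hP h
  exact (N.tubeFact.match_unit L₁.gauge N.gaugeTgt L₁.inner N.outer_tgt ha₁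
    (fun _ hε => L₁.valAt_tu _ hε) N.tu_tgt h₁ h₂ (fun P hP _ h => hpole P hP h)).2 hval P hP
    (N.thick_lt P hP) h

end Last

/-! ### the node without levels -/

/-- `node_match` between `src e` and `tgt e` (the field of `SS.SemistableSetup`) from the
factorisation -/
theorem node_match (hthick : A.valuation thick < 1) (y : F) (h₁ : y ∈ S₀.O (S₀.src e))
    (h₂ : y ∈ S₀.O (S₀.tgt e)) (hpole : ∀ P ∈ tube S₀ e, 0 ≤ P.ord y) :
    ∃ c : ResidueField A, IsValueAt (S₀.s₁ e) (S₀.res (S₀.src e) ⟨y, h₁⟩) c ∧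
      IsValueAt (S₀.s₂ e) (S₀.res (S₀.tgt e) ⟨y, h₂⟩) c :=
  (N.tubeFact.match_unit N.gaugeSrc N.gaugeTgt N.inner_src N.outer_tgt
    (by rw [map_one]; exact hthick) N.tu_src N.tu_tgt h₁ h₂ (fun P hP _ _ => hpole P hP)).1

/-- `node_unit` between `src e` and `tgt e` from the factorisation -/
theorem node_unit (hthick : A.valuation thick < 1) (y : F) (h₁ : y ∈ S₀.O (S₀.src e))
    (h₂ : y ∈ S₀.O (S₀.tgt e)) (hpole : ∀ P ∈ tube S₀ e, 0 ≤ P.ord y)
    (hval : ∃ c : ResidueField A, c ≠ 0 ∧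
      IsValueAt (S₀.s₁ e) (S₀.res (S₀.src e) ⟨y, h₁⟩) c) :
    ∀ P ∈ tube S₀ e, P.ord y = 0 := by
  intro P hP
  refine (N.tubeFact.match_unit N.gaugeSrc N.gaugeTgt N.inner_src N.outer_tgt
    (by rw [map_one]; exact hthick) N.tu_src N.tu_tgt h₁ h₂ (fun P hP _ _ => hpole P hP)).2 hval
    P hP (N.thick_lt P hP) ?_
  rw [map_one]
  exact N.lt_one P hP

end NodeFact

end Fermat.Agent.BR.Fact
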