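import Mathlib
import Fermat.Agent.BR.Refine.Final
import Fermat.Agent.BR.S34Final
import Fermat.Agent.Val.RankOne
import Fermat.Agent.Val.RiemannPkgBar
import Fermat.Agent.Val.ResidueFieldA

/-!
# Program B (BADRED): the geometric main theorem from the modular inputs

`HasModularInput N P` collects EXACTLY what the provider blocks (B1, B6, B7) still have to deliver
for the function field `F̄_N` of `X₀(N)` over `ℚ̄` and a valuation ring `P` of `ℚ̄` over `q`
(`N = M ℓ q`):

* a semistable base model `S₀` (block B6.6: the two-component model `Z₁ ∪ Z₂`), with finitely many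
  components and nodes, the Riemann package of its residue function fields and the genus equality;
* a chain provider over `S₀` (block B7.4: exceptional components at every finite family of
  positions in the annuli of the nodes);
* for every `σ` in the inertia group of `P`: the annulus coordinates are fixed by the arithmetic
  Galois action of `σ`, which acts trivially on the reduction map of `S₀`.

`hasNodalReductionsAux_of_modularInput` : these inputs imply the geometric main theorem
`S34Final.HasNodalReductionsAux` of block B5 (hence the frozen statement S34 through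
`S34Final.s34_of_hasNodalReductionsAux`).
-/

set_option autoImplicit false

namespace Fermat.Agent.BR.Refine

open AlgebraicCurve ModularCurve IsLocalRing Fermat.Agent.Red Fermat.Agent.BR.SS

local notation "Qb" => AlgebraicClosure ℚ

/-- The modular inputs of the geometric main theorem at level `N` for the place `P`. -/
def HasModularInput (N : ℕ) (P : ValuationSubring Qb) [IsAlgClosed (ResidueField P)] : Prop :=
  ∃ (ι₀ ν₀ : Type) (_ : Fintype ι₀) (_ : Fintype ν₀) (Ft₀ : ι₀ → Type)
    (_ : ∀ v, Field (Ft₀ v)) (_ : ∀ v, Algebra (ResidueField P) (Ft₀ v))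
    (S₀ : SemistableSetup (F := modularFunctionFieldBar N) P (residue P) ι₀ Ft₀ ν₀),
    (∀ v, RiemannPkg (ResidueField P) (Ft₀ v)) ∧
    ((genusFF Qb (modularFunctionFieldBar N) : ℤ) =
      ∑ v, (genusFF (ResidueField P) (Ft₀ v) : ℤ) + Fintype.card ν₀ - Fintype.card ι₀ + 1) ∧
    ∃ Pr : ChainProvider S₀, ∀ σ ∈ P.inertiaSubgroupIn ℚ,
      (∀ e, arithmeticGalois (modularFunctionFieldFull N) σ • Pr.u e = Pr.u e) ∧
      ∀ Q : Place Qb (modularFunctionFieldBar N),
        S₀.r (arithmeticGalois (modularFunctionFieldFull N) σ • Q) = S₀.r Q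

/-- `HasNodalReductions` for the inertia elements from the modular inputs. -/
theorem hasNodalReductions_of_modularInput {N q : ℕ} [NeZero N] (hq : q.Prime)
    (P : ValuationSubring Qb) (hP : P.LiesOverPrime q) [IsAlgClosed (ResidueField P)]
    (h : HasModularInput N P) {σ : Qb ≃ₐ[ℚ] Qb} (hσ : σ ∈ P.inertiaSubgroupIn ℚ) :
    Nodal.HasNodalReductions (ResidueField P)
      (arithmeticGalois (modularFunctionFieldFull N) σ) := by
  obtain ⟨ι₀, ν₀, _, _, Ft₀, _, _, S₀, hFt, hgen, Pr, hPr⟩ := h
  haveI : Fact q.Prime := ⟨hq⟩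
  exact hasNodalReductions_of_chainProvider S₀ (Fermat.Agent.Val.isRankOne P hP)
    (Fermat.Agent.Val.riemannPkg_bar N) hFt hgen Pr hσ
    (Fermat.Agent.S05.valuation_apply_eq_of_mem_inertia P hσ) _ rfl
    (hPr σ hσ).1 (hPr σ hσ).2

/-- **The geometric main theorem of Program B from the modular inputs.** -/
theorem hasNodalReductionsAux_of_modularInput
    (h : ∀ M q : ℕ, 0 < M → q.Prime → ¬ q ∣ M → ∃ ℓ : ℕ, 0 < ℓ ∧
      ∀ P : ValuationSubring Qb, P.LiesOverPrime q → ∀ [IsAlgClosed (ResidueField P)],
        HasModularInput (M * ℓ * q) P) :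
    S34Final.HasNodalReductionsAux := by
  intro M q hM hq hqM
  obtain ⟨ℓ, hℓ, h1⟩ := h M q hM hq hqM
  refine ⟨ℓ, hℓ, fun P hP σ hσ => ?_⟩
  haveI : IsAlgClosed (ResidueField P) :=
    Fermat.Agent.Val.residueField_isAlgClosed_algebraicClosure_rat P
  haveI : NeZero (M * ℓ * q) :=
    ⟨Nat.mul_ne_zero (Nat.mul_ne_zero hM.ne' hℓ.ne') hq.ne_zero⟩
  exact hasNodalReductions_of_modularInput hq P hP (h1 P hP) hσ

end Fermat.Agent.BR.Refine
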